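/-
Row 38, block T (Frey curve at `p`; sub-architect helper77), seat T-FREY (helper6):
the arithmetic of the integral Frey curve `W = P.freyCurveInt` at the prime `p = P.p` when
`p ∣ a b c`:

* `freyData_dvd_Δ`      : `p ∣ Δ`;
* `freyData_not_dvd_c₄` : `p ∤ c₄`   (multiplicative reduction);
* `freyData_Δ_eq`       : `Δ = p ^ (p * m) * u` with `2 ≤ m`, `p ∤ u`   (so `p ∣ v_p(Δ)`);
* `freyData_main`       : the three together;
* `freyData_v_Δ`, `freyData_v_c₄`, `freyData_v_Δ_lt_one` : the same in terms of a valuation `v`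
  with `v p < 1` on a field `K ⊇ ℚ`: `v Δ = v p ^ (p * m)`, `v c₄ = 1`, `v Δ < 1`.
-/
import Mathlib
import Fermat.Prelude.Def_FLTPrelim_FreyPackage
import Fermat.Agent.Lib.Frey.Basic
import Fermat.Agent.S05.H5.FreyFacts

set_option autoImplicit false

namespace Fermat.Agent.R38T

open WeierstrassCurve Fermat.Agent.FreyLib

/-- `p ∣ Δ`. -/
theorem freyData_dvd_Δ (P : FreyPackage) (hp : (P.p : ℤ) ∣ P.a * P.b * P.c) :
    (P.p : ℤ) ∣ P.freyCurveInt.Δ :=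
  dvd_Δ_of_dvd_abc P P.pp hp

/-- `p ∤ c₄`: the reduction at `p` is multiplicative. -/
theorem freyData_not_dvd_c₄ (P : FreyPackage) (hp : (P.p : ℤ) ∣ P.a * P.b * P.c) :
    ¬ (P.p : ℤ) ∣ P.freyCurveInt.c₄ :=
  freyCurveInt_isSemistableModel P P.p P.pp (freyData_dvd_Δ P hp)

/-- every nonzero integer is `p ^ k * w` with `p ∤ w`. -/
theorem freyData_exists_pow_mul {p : ℕ} (hp : p.Prime) {x : ℤ} (hx : x ≠ 0) :
    ∃ (k : ℕ) (w : ℤ), ¬ (p : ℤ) ∣ w ∧ x = (p : ℤ) ^ k * w := by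
  have hfin : FiniteMultiplicity (p : ℤ) x := by
    rw [Int.finiteMultiplicity_iff]
    refine ⟨?_, hx⟩
    rw [Int.natAbs_natCast]
    exact hp.ne_one
  obtain ⟨w, hw, hnd⟩ := hfin.exists_eq_pow_mul_and_not_dvd
  exact ⟨_, w, hnd, hw⟩

theorem freyData_not_dvd_256 (P : FreyPackage) : ¬ (P.p : ℤ) ∣ 256 := by
  intro h
  have hp' : Prime (P.p : ℤ) := Nat.prime_iff_prime_int.mp P.pp
  have h1 : (P.p : ℤ) ∣ 2 ^ 8 := by norm_num; exact h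
  have h2 : (P.p : ℤ) ∣ 2 := hp'.dvd_of_dvd_pow h1
  have h3 : P.p ∣ 2 := by exact_mod_cast h2
  have h4 := Nat.le_of_dvd (by norm_num) h3
  have := P.hp5
  omega

/-- `Δ = p ^ (p * m) * u` with `2 ≤ m` and `p ∤ u`. -/
theorem freyData_Δ_eq (P : FreyPackage) (hp : (P.p : ℤ) ∣ P.a * P.b * P.c) :
    ∃ (m : ℕ) (u : ℤ), 2 ≤ m ∧ ¬ (P.p : ℤ) ∣ u ∧
      P.freyCurveInt.Δ = (P.p : ℤ) ^ (P.p * m) * u := by
  have hp' : Prime (P.p : ℤ) := Nat.prime_iff_prime_int.mp P.pp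
  obtain ⟨k, w, hw, habc⟩ := freyData_exists_pow_mul P.pp P.habc0
  have hk : 1 ≤ k := by
    rcases Nat.eq_zero_or_pos k with h0 | h0
    · exfalso
      rw [h0, pow_zero, one_mul] at habc
      rw [habc] at hp
      exact hw hp
    · exact h0
  have hΔ : 256 * P.freyCurveInt.Δ = (P.p : ℤ) ^ (P.p * (2 * k)) * (w ^ P.p) ^ 2 := by
    rw [freyCurveInt_Δ_mul P, ← mul_pow, ← mul_pow, habc]
    ring
  have hcop : IsCoprime ((P.p : ℤ) ^ (P.p * (2 * k))) (256 : ℤ) := by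
    apply IsCoprime.pow_left
    rw [Prime.coprime_iff_not_dvd hp']
    exact freyData_not_dvd_256 P
  have hdvd : (P.p : ℤ) ^ (P.p * (2 * k)) ∣ P.freyCurveInt.Δ := by
    apply hcop.dvd_of_dvd_mul_left
    rw [hΔ]
    exact Dvd.intro _ rfl
  obtain ⟨u, hu⟩ := hdvd
  refine ⟨2 * k, u, by omega, ?_, hu⟩
  intro hpu
  have hpne : (P.p : ℤ) ^ (P.p * (2 * k)) ≠ 0 := pow_ne_zero _ hp'.ne_zero
  have h1 : 256 * u = (w ^ P.p) ^ 2 := by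
    apply mul_left_cancel₀ hpne
    rw [← hΔ, hu]
    ring
  have h2 : (P.p : ℤ) ∣ (w ^ P.p) ^ 2 := by
    rw [← h1]
    exact Dvd.dvd.mul_left hpu _
  exact hw (hp'.dvd_of_dvd_pow (hp'.dvd_of_dvd_pow h2))

/-- **(T-FREY)** the Frey curve at `p ∣ a b c`: `p ∣ Δ`, `p ∤ c₄`, `Δ = p ^ (p m) u`, `m ≥ 2`,
`p ∤ u`. -/
theorem freyData_main (P : FreyPackage) (hp : (P.p : ℤ) ∣ P.a * P.b * P.c) :
    (P.p : ℤ) ∣ P.freyCurveInt.Δ ∧ ¬ (P.p : ℤ) ∣ P.freyCurveInt.c₄ ∧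
      ∃ (m : ℕ) (u : ℤ), 2 ≤ m ∧ ¬ (P.p : ℤ) ∣ u ∧
        P.freyCurveInt.Δ = (P.p : ℤ) ^ (P.p * m) * u :=
  ⟨freyData_dvd_Δ P hp, freyData_not_dvd_c₄ P hp, freyData_Δ_eq P hp⟩

/-! ### in terms of a valuation -/

section Val

variable {K : Type*} [Field K] [Algebra ℚ K] {Γ₀ : Type*} [LinearOrderedCommGroupWithZero Γ₀]

theorem freyData_c₄_eq (P : FreyPackage) :
    (P.freyCurve⁄K).c₄ = ((P.freyCurveInt.c₄ : ℤ) : K) := by
  rw [S05H5.frey_baseChange_eq_map P, WeierstrassCurve.map_c₄, eq_intCast]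

/-- `v Δ = v p ^ (p * m)`, `m ≥ 2`. -/
theorem freyData_v_Δ (P : FreyPackage) (hp : (P.p : ℤ) ∣ P.a * P.b * P.c) (v : Valuation K Γ₀)
    (hvp : v (P.p : K) < 1) :
    ∃ m : ℕ, 2 ≤ m ∧ v (P.freyCurve⁄K).Δ = v (P.p : K) ^ (P.p * m) := by
  obtain ⟨m, u, hm, hu, hΔ⟩ := freyData_Δ_eq P hp
  refine ⟨m, hm, ?_⟩
  rw [S05H5.frey_Δ_eq P, hΔ]
  push_cast
  rw [map_mul, map_pow, S05H5.v_intCast_eq_one v P.pp hvp hu, mul_one]

/-- `v c₄ = 1`. -/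
theorem freyData_v_c₄ (P : FreyPackage) (hp : (P.p : ℤ) ∣ P.a * P.b * P.c) (v : Valuation K Γ₀)
    (hvp : v (P.p : K) < 1) : v (P.freyCurve⁄K).c₄ = 1 := by
  rw [freyData_c₄_eq P]
  exact S05H5.v_intCast_eq_one v P.pp hvp (freyData_not_dvd_c₄ P hp)

/-- `v Δ < 1`. -/
theorem freyData_v_Δ_lt_one (P : FreyPackage) (hp : (P.p : ℤ) ∣ P.a * P.b * P.c)
    (v : Valuation K Γ₀) (hvp : v (P.p : K) < 1) : v (P.freyCurve⁄K).Δ < 1 := by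
  rw [S05H5.frey_Δ_eq P]
  exact S05H5.v_intCast_lt_one v hvp (freyData_dvd_Δ P hp)

end Val

end Fermat.Agent.R38T
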