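import Mathlib
import Fermat.Agent.R38.T.Defs
import Fermat.Agent.Lib.MultRed.DecompQbar
import Fermat.Agent.Lib.Frey.Basic

/-!
# Row 38, block T: assembly (owner: helper39)

`peuKummer_of_leaves`: the four leaves (`LeafPT`, `LeafKILL`, `LeafNOPT`, `LeafKUM`) give the
Kummer form of "peu ramifie" for the integral model `W`.
-/

set_option autoImplicit false

open WeierstrassCurve WeierstrassCurve.Affine

namespace Fermat.Agent.R38T

open S05H75 Fermat.Agent.MultRed

section Abstract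

variable {J : Type*} [AddCommGroup J]

/-- a point killed by `p` and by a number prime to `p` is zero -/
theorem eq_zero_of_nsmul_coprime {p m : ℕ} (hp : p.Prime) (hm : ¬ p ∣ m) {d : J}
    (h1 : p • d = 0) (h2 : m • d = 0) : d = 0 := by
  have hcop : Nat.Coprime p m := (Nat.Prime.coprime_iff_not_dvd hp).mpr hm
  have h3 : addOrderOf d ∣ p := addOrderOf_dvd_of_nsmul_eq_zero h1
  have h4 : addOrderOf d ∣ m := addOrderOf_dvd_of_nsmul_eq_zero h2
  have h5 : addOrderOf d ∣ 1 := by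
    have := Nat.dvd_gcd h3 h4
    rwa [hcop.gcd_eq_one] at this
  exact AddMonoid.addOrderOf_eq_one_iff.mp (Nat.dvd_one.mp h5)

theorem nsmul_match {p : ℕ} (m₀ j : ℕ) (X : J) {x : J} (hx : p • x = 0) :
    p • (m₀ • (X - j • x)) = m₀ • (p • X) := by
  rw [smul_comm p m₀, smul_sub, smul_comm p j, hx, smul_zero, sub_zero]

variable {G : Type*} [Group G] [DistribMulAction G J]

theorem gal_nsmul (σ : G) (n : ℕ) (P : J) : σ • (n • P) = n • (σ • P) :=
  smul_comm σ n P

/-- the abstract assembly: the fixed point `X`, the multiplier `m₀`, and the Kummer statement for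
`m₀ • (X - j • x)` give `σ x = x` -/
theorem gal_fix_of_match {p m₀ j : ℕ} (hp : p.Prime) (hm₀ : ¬ p ∣ m₀) (hj : ¬ p ∣ j) (σ : G)
    {X x : J} (hX : σ • X = X) (hx : p • x = 0)
    (hQ : σ • (m₀ • (X - j • x)) = m₀ • (X - j • x)) : σ • x = x := by
  have h1 : (m₀ * j) • (σ • x - x) = 0 := by
    rw [gal_nsmul, smul_sub, hX, gal_nsmul, smul_sub, smul_sub] at hQ
    have e2 : m₀ • (j • (σ • x)) = m₀ • (j • x) := sub_right_injective hQ
    rw [mul_smul, smul_sub, smul_sub, e2, sub_self]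
  have h2 : p • (σ • x - x) = 0 := by
    rw [smul_sub, ← gal_nsmul, hx, smul_zero, sub_zero]
  have hmj : ¬ p ∣ m₀ * j := by
    intro h
    rcases (Nat.Prime.dvd_mul hp).mp h with h | h
    · exact hm₀ h
    · exact hj h
  exact sub_eq_zero.mp (eq_zero_of_nsmul_coprime hp hmj h2 h1)

end Abstract

section Assembly

variable (W : WeierstrassCurve ℤ) {p : ℕ} (A : ValuationSubring (AlgebraicClosure ℚ))

theorem inE0v_nsmul_int {Y : ((W.map (Int.castRingHom ℚ))⁄(AlgebraicClosure ℚ)).Point}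
    (hY : InE0v A Y) (m : ℕ) : InE0v A (m • Y) := by
  induction m with
  | zero => rw [zero_nsmul]; exact inE0v_zero
  | succ k ih => rw [succ_nsmul]; exact inE0v_add (intCoeff_map_int W A) ih hY

/-- **assembly of block T**: the leaves give the Kummer form of "peu ramifie" -/
theorem peuKummer_of_leaves (hp : p.Prime) (hPT : LeafPT W p A) (hKILL : LeafKILL W p A)
    (hNOPT : LeafNOPT W p A) (hKUM : LeafKUM W p A) :
    PeuKummer (W.map (Int.castRingHom ℚ)) p A := by
  obtain ⟨X, hXfix, hpX, hmatch⟩ := hPT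
  obtain ⟨w, hw1, hwσ, hkum, hline⟩ := hKUM
  obtain ⟨m₀, hm₀, hθ⟩ := hKILL (p • X) hpX
  -- the Kummer element
  refine ⟨w (m₀ • (p • X)), (hw1 _ hθ).1, (hw1 _ hθ).2, ?_, ?_⟩
  · intro σ hσ
    rw [← hwσ σ hσ _ hθ, gal_nsmul, gal_nsmul, hXfix σ hσ]
  · intro α ζ hα hζ σ hσ hσζ hσα x hx
    by_cases hx1 : InG1 A.valuation x
    · exact hline x hx1 hx σ hσ ζ hζ hσζ
    · obtain ⟨j, hj, hY⟩ := hmatch x hx hx1
      have hQ0 : InE0v A (m₀ • (X - j • x)) := inE0v_nsmul_int W A hY m₀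
      have hpQ : p • (m₀ • (X - j • x)) = m₀ • (p • X) := nsmul_match m₀ j X hx
      have hQ1 : InG1 A.valuation (m₀ • (X - j • x)) := hNOPT _ hQ0 (by rw [hpQ]; exact hθ)
      have hσθ : σ • (p • (m₀ • (X - j • x))) = p • (m₀ • (X - j • x)) := by
        rw [hpQ, gal_nsmul, gal_nsmul, hXfix σ hσ]
      have hQ : σ • (m₀ • (X - j • x)) = m₀ • (X - j • x) :=
        hkum _ hQ1 σ hσ hσθ ζ α hζ hσζ (by rw [hpQ]; exact hα) hσα
      exact gal_fix_of_match hp hm₀ hj σ (hXfix σ hσ) hx hQ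

end Assembly

end Fermat.Agent.R38T
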