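import Mathlib
import Fermat.Agent.Lib.MultRed.E0Tors

/-!
# Row 38, block T (Frey curve at `p`): leaves KILL and NOPT (helper26)

Abstract valued-field statements on a Weierstrass curve in nodal normal form (`MultRed.NodalNF`)
over a field `K` with a valuation subring `A` of residue characteristic `p`.
`E0` = points not reducing to the node (`¬ IsNodePt`), `E1` = kernel of reduction (`InG1`).

* `nopt` (NOPT): `Y ∈ E0`, `p • Y ∈ E1`  ⟹  `Y ∈ E1` (also `nopt_pow` for `p ^ k`).
* `kill_of_resTorsion` (KILL, abstract): if every non-zero element of the residue field has finite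
  order prime to `p`, then for `Y ∈ E0` there is `m` prime to `p` with `m • Y ∈ E1`.
* `resTorsion_of_isAlgebraic`: the hypothesis holds when `K` has characteristic `0` and is
  algebraic over `ℚ` (e.g. `K = ℚ̄`) and `v p < 1`.
* `kill` (KILL): the combination.

Proof: the reduction `red0 : E0 → Ẽ_ns(k)` is additive with kernel `E1` (`MultRed.Red0`), and
`nodeChar : Ẽ_ns(k) → kˣ` is an injective homomorphism (`MultRed.Char`).
-/

set_option autoImplicit false
set_option linter.unusedSectionVars false
set_option linter.style.haveILetI false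

namespace Fermat.Agent.R38T

open WeierstrassCurve WeierstrassCurve.Affine IsLocalRing Fermat.Agent.MultRed S05H5 S05H65 S05H75
  Fermat.Agent.EllRed Polynomial

/-! ## Torsion in fields algebraic over `𝔽_p` -/

/-- a non-zero element of a field of characteristic `p` which is a root of unity has order prime
to `p` -/
lemma kill_pow_eq_one_not_dvd {k : Type*} [Field k] {p : ℕ} (hp : p.Prime) [CharP k p]
    {x : k} {n : ℕ} (hn : 0 < n) (hx : x ^ n = 1) : ∃ m : ℕ, ¬ p ∣ m ∧ x ^ m = 1 := by
  haveI : Fact p.Prime := ⟨hp⟩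
  induction n using Nat.strong_induction_on generalizing x with
  | _ n ih =>
    by_cases hpn : p ∣ n
    · obtain ⟨n', rfl⟩ := hpn
      have hn' : 0 < n' := Nat.pos_of_ne_zero (by rintro rfl; simp at hn)
      have h1 : (x ^ n' - 1) ^ p = 0 := by
        rw [sub_pow_char, one_pow, ← pow_mul, mul_comm, hx, sub_self]
      have h2 : x ^ n' = 1 := sub_eq_zero.mp (pow_eq_zero_iff hp.ne_zero |>.mp h1)
      exact ih n' (by nlinarith [hp.two_le]) hn' h2
    · exact ⟨n, hpn, hx⟩

/-- a non-zero element of a field of characteristic `p`, annihilated by a polynomial with integer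
coefficients which is non-zero modulo `p`, has finite order prime to `p` -/
lemma kill_pow_eq_one_of_root {k : Type*} [Field k] {p : ℕ} (hp : p.Prime) [CharP k p]
    {x : k} (hx0 : x ≠ 0) (g : ℤ[X]) (hg : g.map (Int.castRingHom (ZMod p)) ≠ 0)
    (hgx : aeval x g = 0) : ∃ m : ℕ, ¬ p ∣ m ∧ x ^ m = 1 := by
  haveI : Fact p.Prime := ⟨hp⟩
  letI : Algebra (ZMod p) k := ZMod.algebra k p
  have hint : IsIntegral (ZMod p) x := by
    refine IsAlgebraic.isIntegral ⟨g.map (Int.castRingHom (ZMod p)), hg, ?_⟩
    rw [aeval_def, eval₂_map]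
    have : (algebraMap (ZMod p) k).comp (Int.castRingHom (ZMod p)) = algebraMap ℤ k :=
      RingHom.ext_int _ _
    rw [this, ← aeval_def]
    exact hgx
  -- the subalgebra generated by `x` is finite
  haveI : Module.Finite (ZMod p) (Algebra.adjoin (ZMod p) {x}) :=
    Algebra.finite_adjoin_simple_of_isIntegral hint
  haveI : Finite (Algebra.adjoin (ZMod p) {x}) := Module.finite_of_finite (ZMod p)
  -- hence two powers of `x` coincide
  let f : ℕ → Algebra.adjoin (ZMod p) {x} :=
    fun i => ⟨x ^ i, pow_mem (Algebra.self_mem_adjoin_singleton _ x) i⟩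
  obtain ⟨i, j, hij, hf⟩ := Finite.exists_ne_map_eq_of_infinite f
  have hpow : x ^ i = x ^ j := congrArg Subtype.val hf
  have key : ∀ a b : ℕ, a < b → x ^ a = x ^ b → ∃ m : ℕ, ¬ p ∣ m ∧ x ^ m = 1 := by
    intro a b hab h
    have h1 : x ^ (b - a) = 1 := by
      have h2 : x ^ a * x ^ (b - a) = x ^ a * 1 := by
        rw [← pow_add, mul_one, Nat.add_sub_cancel' hab.le, h]
      exact mul_left_cancel₀ (pow_ne_zero _ hx0) h2
    exact kill_pow_eq_one_not_dvd hp (Nat.sub_pos_of_lt hab) h1
  rcases Nat.lt_or_gt_of_ne hij with h | h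
  · exact key i j h hpow
  · exact key j i h hpow.symm

/-- **residue torsion**: if `K` has characteristic `0` and is algebraic over `ℚ`, and `v p < 1`,
every non-zero element of the residue field has finite order prime to `p`. -/
theorem resTorsion_of_isAlgebraic {K : Type*} [Field K] [CharZero K] [Algebra.IsAlgebraic ℚ K]
    (A : ValuationSubring K) {p : ℕ} (hp : p.Prime) (hvp : A.valuation (p : K) < 1)
    (u : ResidueField A) (hu : u ≠ 0) : ∃ m : ℕ, ¬ p ∣ m ∧ u ^ m = 1 := by
  classical
  haveI : CharP (ResidueField A) p := charP_resField_of_val hp hvp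
  obtain ⟨a, rfl⟩ := residue_surjective u
  -- a polynomial over `ℤ` killing `a`
  have halg : IsAlgebraic ℤ (a : K) :=
    (IsFractionRing.isAlgebraic_iff ℤ ℚ K).mpr (Algebra.IsAlgebraic.isAlgebraic _)
  obtain ⟨f, hf0, hfa⟩ := halg
  -- its primitive part
  have hc0 : f.content ≠ 0 := by rwa [Ne, content_eq_zero_iff]
  have hfa' : aeval (a : K) f.primPart = 0 := by
    have h1 : aeval (a : K) f = (f.content : K) * aeval (a : K) f.primPart := by
      conv_lhs => rw [f.eq_C_content_mul_primPart]
      rw [map_mul, aeval_C]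
      simp
    rw [h1] at hfa
    exact (mul_eq_zero.mp hfa).resolve_left (Int.cast_ne_zero.mpr hc0)
  have hprim : f.primPart.IsPrimitive := f.isPrimitive_primPart
  have hg : f.primPart.map (Int.castRingHom (ZMod p)) ≠ 0 := by
    intro h0
    have hdvd : C (p : ℤ) ∣ f.primPart := by
      rw [C_dvd_iff_dvd_coeff]
      intro i
      have := congrArg (fun q => q.coeff i) h0
      simp only [coeff_map, coeff_zero, eq_intCast] at this
      exact (ZMod.intCast_zmod_eq_zero_iff_dvd _ p).mp this
    have hunit := hprim _ hdvd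
    rw [Int.isUnit_iff] at hunit
    have := hp.one_lt
    omega
  -- reduce
  have hA : aeval a f.primPart = 0 := by
    apply Subtype.val_injective
    have : ((aeval a f.primPart : A) : K) = aeval (a : K) f.primPart := by
      have := aeval_algHom_apply (A.subtype.toIntAlgHom) a f.primPart
      exact this.symm
    rw [this, hfa']
    rfl
  have hres : aeval (residue A a) f.primPart = 0 := by
    have := aeval_algHom_apply ((residue A).toIntAlgHom) a f.primPart
    rw [hA, map_zero] at this
    exact this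
  exact kill_pow_eq_one_of_root hp hu f.primPart hg hres

/-! ## The leaves -/

variable {K : Type*} [Field K] [DecidableEq K] {A : ValuationSubring K} {E : Affine K} {α β : K}

/-- **NOPT** (general form): `Y ∈ E0`, `p ^ k • Y ∈ E1`  ⟹  `Y ∈ E1`. -/
theorem nopt_pow (nf : NodalNF A.valuation E α β) {p : ℕ} (hp : p.Prime)
    (hvp : A.valuation (p : K) < 1) (k : ℕ) {Y : E.Point} (hY : ¬ IsNodePt A.valuation Y)
    (hpY : InG1 A.valuation ((p ^ k) • Y)) : InG1 A.valuation Y := by
  classical
  haveI : Fact p.Prime := ⟨hp⟩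
  haveI : CharP (ResidueField A) p := charP_resField_of_val hp hvp
  have h := isReduction_redCurve nf.intCoeff
  have hE0 := nf.inE0_of_not_isNodePt hY
  rw [← red0_eq_zero_iff hE0]
  apply nf.nodeCubic.eq_zero_of_pow_smul p k
  rw [← red0_nsmul h hE0]
  exact red0_of_inG1 hpY

/-- **NOPT**: `Y ∈ E0`, `p • Y ∈ E1`  ⟹  `Y ∈ E1`. -/
theorem nopt (nf : NodalNF A.valuation E α β) {p : ℕ} (hp : p.Prime)
    (hvp : A.valuation (p : K) < 1) {Y : E.Point} (hY : ¬ IsNodePt A.valuation Y)
    (hpY : InG1 A.valuation (p • Y)) : InG1 A.valuation Y := by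
  refine nopt_pow nf hp hvp 1 hY ?_
  rwa [pow_one]

/-- **KILL** (abstract form): if every non-zero element of the residue field has finite order
prime to `p`, then for `Y ∈ E0` there is `m` prime to `p` with `m • Y ∈ E1`. -/
theorem kill_of_resTorsion (nf : NodalNF A.valuation E α β) {p : ℕ}
    (hk : ∀ u : ResidueField A, u ≠ 0 → ∃ m : ℕ, ¬ p ∣ m ∧ u ^ m = 1)
    {Y : E.Point} (hY : ¬ IsNodePt A.valuation Y) :
    ∃ m : ℕ, ¬ p ∣ m ∧ InG1 A.valuation (m • Y) := by
  classical
  have h := isReduction_redCurve nf.intCoeff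
  have hE0 := nf.inE0_of_not_isNodePt hY
  have nc := nf.nodeCubic
  obtain ⟨m, hpm, hm⟩ := hk _ (nc.nodeChar_ne_zero (red0 A (redCurve A E) Y))
  refine ⟨m, hpm, ?_⟩
  rw [← red0_eq_zero_iff (inE0_nsmul h hE0 m), red0_nsmul h hE0, ← nc.nodeChar_eq_one_iff,
    nc.nodeChar_nsmul, hm]

/-- **KILL**: `K` of characteristic `0`, algebraic over `ℚ`, `v p < 1`: for `Y ∈ E0` there is `m`
prime to `p` with `m • Y ∈ E1`. -/
theorem kill [CharZero K] [Algebra.IsAlgebraic ℚ K] (nf : NodalNF A.valuation E α β) {p : ℕ}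
    (hp : p.Prime) (hvp : A.valuation (p : K) < 1) {Y : E.Point}
    (hY : ¬ IsNodePt A.valuation Y) : ∃ m : ℕ, ¬ p ∣ m ∧ InG1 A.valuation (m • Y) :=
  kill_of_resTorsion nf (resTorsion_of_isAlgebraic A hp hvp) hY

end Fermat.Agent.R38T
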