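import Mathlib
import Fermat.Agent.R38.T.Defs
import Fermat.Agent.R38.T.Kill
import Fermat.Agent.Lib.MultRed.NormalQbar
import Fermat.Agent.Lib.MultRed.NotInG1
import Fermat.Agent.Lib.MultRed.Main

/-!
# Row 38, block T: the leaves `LeafKILL`, `LeafNOPT` at the `Q̄` level (owner: helper39)

Bridges from helper26's `kill`, `nopt` (`Kill.lean`, abstract nodal normal form) to the points of
the original integral model over `Q̄`.
-/

set_option autoImplicit false
set_option linter.unusedSectionVars false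

open WeierstrassCurve WeierstrassCurve.Affine

namespace Fermat.Agent.R38T

open S05H5 S05H65 S05H75 Fermat.Agent.MultRed Fermat.Agent.VarChange

section

variable (W : WeierstrassCurve ℤ) {p : ℕ} [Fact p.Prime] (hΔ : (p : ℤ) ∣ W.Δ)
  (hc₄ : ¬ (p : ℤ) ∣ W.c₄)
  (A : ValuationSubring (AlgebraicClosure ℚ)) (hA : A.LiesOverPrime p)

include hΔ hc₄ hA

/-- a point of `E0` of the original model is the translate of a point not reducing to the node -/
theorem exists_translate_of_inE0v {r t α β : AlgebraicClosure ℚ} (hr : A.valuation r ≤ 1)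
    (nf : NodalNF A.valuation
      ((transl r t) • ((W.map (Int.castRingHom ℚ))⁄(AlgebraicClosure ℚ))).toAffine α β)
    (Y : ((W.map (Int.castRingHom ℚ))⁄(AlgebraicClosure ℚ)).Point) (hY : InE0v A Y) :
    ∃ Y₀ : ((transl r t) • ((W.map (Int.castRingHom ℚ))⁄(AlgebraicClosure ℚ))).toAffine.Point,
      vcHom (W₁ := ((W.map (Int.castRingHom ℚ))⁄(AlgebraicClosure ℚ))) (transl r t) rfl Y₀ = Y ∧
        ¬ IsNodePt A.valuation Y₀ := by
  obtain ⟨Y₀, hY₀⟩ := exists_vcHom_eq ((W.map (Int.castRingHom ℚ))⁄(AlgebraicClosure ℚ)).toAffine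
    r t Y
  refine ⟨Y₀, hY₀, ?_⟩
  intro hn
  have hs := isSingPt_vcHom_of_isNodePt A.valuation
    ((W.map (Int.castRingHom ℚ))⁄(AlgebraicClosure ℚ)).toAffine hr nf Y₀ hn
  rw [hY₀] at hs
  exact ((not_isSingPt_iff_inE0v Y).mpr hY) hs

/-- **the leaf KILL at the `Q̄` level** -/
theorem leafKILL : LeafKILL W p A := by
  have hp : p.Prime := Fact.out
  obtain ⟨r, t, α, β, hr, ht, nf, hfix⟩ := exists_nodalNF W hΔ hc₄ A hA
  have : Algebra.IsAlgebraic ℚ (AlgebraicClosure ℚ) := AlgebraicClosure.isAlgebraic ℚ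
  have hvp : A.valuation ((p : ℕ) : AlgebraicClosure ℚ) < 1 := A.mem_nonunits_iff.mp hA
  intro Y hY
  obtain ⟨Y₀, hY₀, hn⟩ := exists_translate_of_inE0v W hΔ hc₄ A hA hr nf Y hY
  obtain ⟨m, hm, hG⟩ := kill nf hp hvp hn
  refine ⟨m, hm, ?_⟩
  rw [← hY₀, ← map_nsmul, inG1_vcHom_transl_iff A.valuation _ t hr]
  exact hG

/-- **the leaf NOPT at the `Q̄` level** -/
theorem leafNOPT : LeafNOPT W p A := by
  have hp : p.Prime := Fact.out
  obtain ⟨r, t, α, β, hr, ht, nf, hfix⟩ := exists_nodalNF W hΔ hc₄ A hA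
  have hvp : A.valuation ((p : ℕ) : AlgebraicClosure ℚ) < 1 := A.mem_nonunits_iff.mp hA
  intro Y hY hpY
  obtain ⟨Y₀, hY₀, hn⟩ := exists_translate_of_inE0v W hΔ hc₄ A hA hr nf Y hY
  rw [← hY₀, ← map_nsmul, inG1_vcHom_transl_iff A.valuation _ t hr] at hpY
  rw [← hY₀, inG1_vcHom_transl_iff A.valuation _ t hr]
  exact nopt nf hp hvp hn hpY

end

end Fermat.Agent.R38T
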