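import Mathlib
import Fermat.Agent.Lib.MultRed.CharE1

/-!
# Row 38, block T (Frey curve at `p`): leaves KUM and LINE (helper77)

Abstract valued-field statements on a Weierstrass curve in nodal normal form (`MultRed.NodalNF`),
with the approximate character `w = nodeChar W α β` on the kernel of reduction (`InG1`).

`σ : K →+* K` preserves `v`; `Q'` plays the role of `σ Q`: the only facts used are
`w Q' = σ (w Q)` and `p • Q' = p • Q` (i.e. `p • Q` is `σ`-fixed).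

* `kum_fix` (KUM): `Q, Q' ∈ E1`, `p • Q' = p • Q`, `w Q' = σ (w Q)`, `σ ζ = ζ`, `σ a' = a'` with
  `a' ^ p = w (p • Q)`, `v a₆ ≤ v p ^ 2`  ⟹  `Q' = Q`.
* `line_fix` (LINE): `T, T' ∈ E1[p]`, `w T' = σ (w T)`, `σ ζ = ζ`  ⟹  `T' = T`.
-/

set_option autoImplicit false
set_option linter.unusedSectionVars false

namespace Fermat.Agent.R38T

open WeierstrassCurve WeierstrassCurve.Affine Fermat.Agent.MultRed S05H5 S05H65 S05H75 Polynomial

variable {K : Type*} [Field K] [DecidableEq K] {Γ₀ : Type*} [LinearOrderedCommGroupWithZero Γ₀]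
variable {v : Valuation K Γ₀} {W : Affine K} {α β : K}

omit [DecidableEq K] in
/-- a ring endomorphism fixing a primitive root fixes every root of unity of that order -/
lemma map_root_eq_of_primitive (σ : K →+* K) {p : ℕ} (hp : 0 < p) {ζ : K}
    (hζ : IsPrimitiveRoot ζ p) (hσζ : σ ζ = ζ) {μ : K} (hμ : μ ∈ nthRootsFinset p (1 : K)) :
    σ μ = μ := by
  rw [mem_nthRootsFinset hp] at hμ
  have : NeZero p := ⟨hp.ne'⟩
  obtain ⟨i, -, rfl⟩ := hζ.eq_pow_of_pow_eq_one hμ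
  rw [map_pow, hσζ]

omit [DecidableEq K] in
/-- `X ^ p - c ^ p = ∏ (X - μ c)` evaluated -/
lemma pow_sub_pow_eq_prod {p : ℕ} (hp : 0 < p) {ζ : K} (hζ : IsPrimitiveRoot ζ p) (w c : K)
    (hc : c ≠ 0) :
    w ^ p - c ^ p = ∏ μ ∈ nthRootsFinset p (1 : K), (w - μ * c) := by
  have h1 := congrArg (Polynomial.eval (w / c)) (X_pow_sub_one_eq_prod hp hζ)
  simp only [eval_sub, eval_pow, eval_X, eval_one, Polynomial.eval_prod, eval_C] at h1
  have hcard : (nthRootsFinset p (1 : K)).card = p := hζ.card_nthRootsFinset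
  have h2 : ∏ μ ∈ nthRootsFinset p (1 : K), (w - μ * c)
      = c ^ p * ∏ μ ∈ nthRootsFinset p (1 : K), (w / c - μ) := by
    have h3 : c ^ p = ∏ _μ ∈ nthRootsFinset p (1 : K), c := by
      rw [Finset.prod_const, hcard]
    rw [h3, ← Finset.prod_mul_distrib]
    refine Finset.prod_congr rfl fun μ _ => ?_
    field_simp
  rw [h2, ← h1, div_pow]
  field_simp

/-- **LINE**: an automorphism fixing `ζ_p` fixes the `p`-torsion of the kernel of reduction. -/
theorem line_fix (nf : NodalNF v W α β) {p : ℕ} (hp : p.Prime) (hp0 : (p : K) ≠ 0)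
    (ha₆ : v W.a₆ ≤ v (p : K)) (σ : K →+* K) (hσv : ∀ a : K, v (σ a) = v a)
    {ζ : K} (hζ : IsPrimitiveRoot ζ p) (hσζ : σ ζ = ζ)
    {T T' : W.Point} (hT : InG1 v T) (hT' : InG1 v T') (hpT : p • T = 0) (hpT' : p • T' = 0)
    (hw : nodeChar W α β T' = σ (nodeChar W α β T)) : T' = T := by
  by_contra hne
  obtain ⟨μ, hμ, hnear⟩ := nf.exists_root_near hp hp0 ha₆ hζ hT hpT
  have hσμ : σ μ = μ := map_root_eq_of_primitive σ hp.pos hζ hσζ hμ
  have hd := nf.v_nodeChar_sub_pow hp hp0 ha₆ hT' hT hpT' hpT hne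
  have e : nodeChar W α β T' - nodeChar W α β T
      = σ (nodeChar W α β T - μ) - (nodeChar W α β T - μ) := by
    rw [hw, map_sub, hσμ]; ring
  have h1 : v (nodeChar W α β T' - nodeChar W α β T) ≤ v (nodeChar W α β T - μ) := by
    rw [e]
    refine le_trans (Valuation.map_sub _ _ _) ?_
    rw [hσv, max_self]
  have h2 : v (nodeChar W α β T' - nodeChar W α β T) ^ (p - 1) < v (p : K) :=
    lt_of_le_of_lt (pow_le_pow_left₀ zero_le h1 _) hnear
  rw [hd] at h2
  exact lt_irrefl _ h2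

/-- **KUM**: a `p`-th root `Q ∈ E1` of a `σ`-fixed point `θ = p • Q` is fixed by `σ` as soon as `σ`
fixes `ζ_p` and a `p`-th root `a'` of the unit `w θ`. -/
theorem kum_fix (nf : NodalNF v W α β) {p : ℕ} (hp : p.Prime) (hp0 : (p : K) ≠ 0)
    (ha₆ : v W.a₆ ≤ v (p : K) ^ 2) (hvp : v (p : K) < 1)
    (σ : K →+* K) (hσv : ∀ a : K, v (σ a) = v a)
    {ζ a' : K} (hζ : IsPrimitiveRoot ζ p) (hσζ : σ ζ = ζ) (hσa : σ a' = a')
    {Q Q' : W.Point} (hQ : InG1 v Q) (hQ' : InG1 v Q') (hpQ : p • Q' = p • Q)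
    (ha' : a' ^ p = nodeChar W α β (p • Q))
    (hw : nodeChar W α β Q' = σ (nodeChar W α β Q)) : Q' = Q := by
  by_contra hne
  obtain ⟨hb₂, hb₄, hb₆, hb₈⟩ := nf.vb
  have hvp0 : v (p : K) ≠ 0 := (Valuation.ne_zero_iff v).mpr hp0
  have hvppos : 0 < v (p : K) := zero_lt_iff.mpr hvp0
  have hp1 : p - 1 ≠ 0 := by have := hp.two_le; omega
  have ha₆1 : v W.a₆ ≤ v (p : K) := by
    refine le_trans ha₆ ?_
    rw [pow_two]
    calc v (p : K) * v (p : K) ≤ v (p : K) * 1 := mul_le_mul' le_rfl hvp.le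
      _ = v (p : K) := mul_one _
  -- the difference `T = Q' - Q` is a nonzero point of `E1[p]`
  have hT : InG1 v (Q' - Q) := inG1_sub v hb₂ hb₄ hb₆ hb₈ hQ' hQ
  have hT0 : Q' - Q ≠ 0 := sub_ne_zero.mpr hne
  have hpT : p • (Q' - Q) = 0 := by rw [smul_sub, hpQ, sub_self]
  have hρ := nf.v_nodeChar_sub_one_pow hp hp0 ha₆1 hT hT0 hpT
  set ρ := v (nodeChar W α β (Q' - Q) - 1) with hρdef
  have hρ1 : ρ < 1 := nf.v_nodeChar_sub_one_lt hT
  have hρ0 : ρ ≠ 0 := by
    intro h0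
    rw [h0, zero_pow hp1] at hρ
    exact hvp0 hρ.symm
  have hρpos : 0 < ρ := zero_lt_iff.mpr hρ0
  have hvpρ : v (p : K) ≤ ρ := by
    rw [← hρ]; exact pow_le_of_le_one zero_le hρ1.le hp1
  set w := nodeChar W α β Q with hwdef
  -- (1) `v (σ w - w) = ρ`
  have hu : max (v (pt (Q' - Q))) (v (pt Q)) < 1 :=
    max_lt ((inG1_iff v _).mp hT).2 ((inG1_iff v _).mp hQ).2
  have hD := nf.v_nodeChar_add_le hT hQ (le_max_left _ _) (le_max_right _ _)
  rw [sub_add_cancel] at hD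
  have hD' : v (nodeChar W α β Q' - nodeChar W α β (Q' - Q) * w) < ρ := by
    refine lt_of_le_of_lt hD ?_
    calc v W.a₆ * max (v (pt (Q' - Q))) (v (pt Q))
        ≤ v (p : K) * max (v (pt (Q' - Q))) (v (pt Q)) := mul_le_mul' ha₆1 le_rfl
      _ < v (p : K) * 1 := mul_lt_mul_of_pos_left hu hvppos
      _ = v (p : K) := mul_one _
      _ ≤ ρ := hvpρ
  have e1 : nodeChar W α β Q' - w
      = (nodeChar W α β Q' - nodeChar W α β (Q' - Q) * w)
        + w * (nodeChar W α β (Q' - Q) - 1) := by ring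
  have hmain : v (w * (nodeChar W α β (Q' - Q) - 1)) = ρ := by
    rw [map_mul, nf.v_nodeChar hQ, one_mul]
  have h1 : v (σ w - w) = ρ := by
    rw [← hw, e1, Valuation.map_add_eq_of_lt_right v (by rw [hmain]; exact hD'), hmain]
  -- (2) `w ^ p = a' ^ p + e` with `e` tiny
  obtain ⟨-, -, hk⟩ := nf.v_nodeChar_nsmul_le hQ p
  rw [← ha', ← hwdef, Valuation.map_sub_swap] at hk
  have hva : v (a' ^ p) = 1 := by rw [ha']; exact nf.v_nodeChar (nf.v_nodeChar_nsmul_le hQ p).1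
  have ha0 : a' ≠ 0 := by
    intro h0
    rw [h0, zero_pow hp.ne_zero, map_zero] at hva
    exact zero_ne_one hva
  have hsmall : v (w ^ p - a' ^ p) < v (p : K) * ρ := by
    refine lt_of_le_of_lt hk ?_
    have hptQ : v (pt Q) < 1 := ((inG1_iff v _).mp hQ).2
    calc v W.a₆ * v (pt Q) ≤ v (p : K) ^ 2 * v (pt Q) := mul_le_mul' ha₆ le_rfl
      _ < v (p : K) ^ 2 * 1 := mul_lt_mul_of_pos_left hptQ (pow_pos hvppos 2)
      _ = v (p : K) * v (p : K) := by rw [mul_one, pow_two]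
      _ ≤ v (p : K) * ρ := mul_le_mul' le_rfl hvpρ
  -- (3) some factor `w - μ a'` is smaller than `ρ`
  have hex : ∃ μ ∈ nthRootsFinset p (1 : K), v (w - μ * a') < ρ := by
    by_contra hcon
    push Not at hcon
    have hprod := pow_sub_pow_eq_prod hp.pos hζ w a' ha0
    have h2 : ρ ^ p ≤ ∏ μ ∈ nthRootsFinset p (1 : K), v (w - μ * a') := by
      have := Finset.pow_card_le_prod (nthRootsFinset p (1 : K)) (fun μ => v (w - μ * a')) ρ hcon
      rwa [hζ.card_nthRootsFinset] at this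
    rw [← map_prod, ← hprod] at h2
    have hpow : ρ ^ p = v (p : K) * ρ := by
      rw [← hρ, ← pow_succ, Nat.sub_add_cancel hp.one_le]
    rw [hpow] at h2
    exact absurd (lt_of_le_of_lt h2 hsmall) (lt_irrefl _)
  obtain ⟨μ, hμ, hμlt⟩ := hex
  have hσμ : σ μ = μ := map_root_eq_of_primitive σ hp.pos hζ hσζ hμ
  have e2 : σ w - w = σ (w - μ * a') - (w - μ * a') := by
    rw [map_sub, map_mul, hσμ, hσa]; ring
  have h3 : v (σ w - w) ≤ v (w - μ * a') := by
    rw [e2]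
    refine le_trans (Valuation.map_sub _ _ _) ?_
    rw [hσv, max_self]
  rw [h1] at h3
  exact absurd (lt_of_le_of_lt h3 hμlt) (lt_irrefl _)

end Fermat.Agent.R38T
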