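import Mathlib
import Fermat.Agent.R38.T.Kum
import Fermat.Agent.Lib.MultRed.Unipotent
import Fermat.Agent.Lib.MultRed.NotInG1

/-!
# Row 38, block T: KUM and LINE in the setting of `Lib/MultRed/Unipotent.lean` (helper77)

`W' : Affine R`, `K ⊇ R` a valued field, the translate `transl r t • (W'⁄K)` in nodal normal form
with tangent directions `α, β`; `σ : K →ₐ[S] K` preserves `v` and fixes `r, t, α, β`.
Points of `W'⁄K` are written `vcHom (transl r t) rfl Q₀` with `Q₀` on the translate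
(`MultRed.exists_vcHom_eq`).

* `exists_transl_img`: the point `σ Q` on the translate, with `w (σ Q) = σ (w Q)`.
* `kum_fix_map`, `line_fix_map`: `Point.map σ Q = Q`.
-/

set_option autoImplicit false
set_option linter.unusedSectionVars false

namespace Fermat.Agent.R38T

open WeierstrassCurve WeierstrassCurve.Affine Fermat.Agent.MultRed Fermat.Agent.VarChange
  S05H5 S05H65 S05H75

variable {K : Type*} [Field K] [DecidableEq K] {Γ₀ : Type*} [LinearOrderedCommGroupWithZero Γ₀]
variable {R S : Type*} [CommRing R] [CommRing S] [Algebra R S] [Algebra R K] [Algebra S K]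
  [IsScalarTower R S K]

/-- the image under `σ` of a point of the translate, together with its character -/
theorem exists_transl_img (v : Valuation K Γ₀) (W' : Affine R) {r t α β : K}
    (σ : K →ₐ[S] K) (hσv : ∀ a : K, v (σ a) = v a)
    (hσr : σ r = r) (hσt : σ t = t) (hσα : σ α = α) (hσβ : σ β = β)
    (X₀ : ((transl r t) • (W'⁄K)).toAffine.Point) :
    ∃ X₀' : ((transl r t) • (W'⁄K)).toAffine.Point,
      vcHom (W₁ := (W'⁄K)) (transl r t) rfl X₀'
          = Point.map σ (vcHom (W₁ := (W'⁄K)) (transl r t) rfl X₀) ∧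
        nodeChar ((transl r t) • (W'⁄K)).toAffine α β X₀'
          = σ (nodeChar ((transl r t) • (W'⁄K)).toAffine α β X₀) ∧
        (InG1 v X₀ → InG1 v X₀') := by
  rcases X₀ with _ | ⟨x, y, h⟩
  · refine ⟨0, ?_, ?_, fun _ => Or.inl rfl⟩
    · have : (Point.zero : ((transl r t) • (W'⁄K)).toAffine.Point) = 0 := rfl
      rw [this, map_zero, map_zero]
    · have : (Point.zero : ((transl r t) • (W'⁄K)).toAffine.Point) = 0 := rfl
      rw [this, nodeChar_zero, map_one]
  · have h1 : (W'⁄K).Nonsingular (x + r) (y + t) := by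
      have := vc_nonsingular_of_eq (W₁ := (W'⁄K)) (transl r t) rfl h
      rwa [vcX_transl, vcY_transl] at this
    have hσ1 : (W'⁄K).Nonsingular (σ (x + r)) (σ (y + t)) :=
      (W'.baseChange_nonsingular σ.injective (x + r) (y + t)).mpr h1
    have h'' : ((transl r t) • (W'⁄K)).toAffine.Nonsingular (σ x) (σ y) := by
      rw [vc_nonsingular_iff, vcX_transl, vcY_transl]
      have e1 : σ x + r = σ (x + r) := by rw [map_add, hσr]
      have e2 : σ y + t = σ (y + t) := by rw [map_add, hσt]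
      rw [e1, e2]
      exact hσ1
    refine ⟨Point.some (σ x) (σ y) h'', ?_, ?_, ?_⟩
    · rw [vcHom_apply, vcHom_apply, vcFun_some, vcFun_some]
      have hmap : Point.map σ (Point.some (vcX (transl r t) x) (vcY (transl r t) x y)
            (vc_nonsingular_of_eq (W₁ := (W'⁄K)) (transl r t) rfl h))
          = Point.some (σ (vcX (transl r t) x)) (σ (vcY (transl r t) x y))
            ((W'.baseChange_nonsingular σ.injective _ _).mpr
              (vc_nonsingular_of_eq (W₁ := (W'⁄K)) (transl r t) rfl h)) :=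
        Point.map_some σ _
      rw [hmap]
      simp only [vcX_transl, vcY_transl, map_add, hσr, hσt]
    · rw [nodeChar_some, nodeChar_some, map_div₀, map_sub, map_sub, map_mul, map_mul, hσα, hσβ]
    · intro hP
      have := one_lt_of_inG1_some hP
      refine Or.inr ?_
      rw [px_some, hσv]
      exact this

/-- **LINE**, Galois form: `σ` fixing `ζ_p` fixes the `p`-torsion of the kernel of reduction. -/
theorem line_fix_map (v : Valuation K Γ₀) (W' : Affine R) {r t α β : K}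
    (nf : NodalNF v ((transl r t) • (W'⁄K)).toAffine α β)
    {p : ℕ} (hp : p.Prime) (hp0 : (p : K) ≠ 0)
    (ha₆ : v ((transl r t) • (W'⁄K)).a₆ ≤ v (p : K))
    (σ : K →ₐ[S] K) (hσv : ∀ a : K, v (σ a) = v a)
    (hσr : σ r = r) (hσt : σ t = t) (hσα : σ α = α) (hσβ : σ β = β)
    {ζ : K} (hζ : IsPrimitiveRoot ζ p) (hσζ : σ ζ = ζ)
    {T₀ : ((transl r t) • (W'⁄K)).toAffine.Point} (hT : InG1 v T₀) (hpT : p • T₀ = 0) :
    Point.map σ (vcHom (W₁ := (W'⁄K)) (transl r t) rfl T₀)
      = vcHom (W₁ := (W'⁄K)) (transl r t) rfl T₀ := by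
  obtain ⟨T₀', hT', hw, hG⟩ := exists_transl_img v W' σ hσv hσr hσt hσα hσβ T₀
  have hpT' : p • T₀' = 0 := by
    apply vcHom_injective (W₁ := (W'⁄K)) (transl r t) rfl
    rw [map_nsmul, hT', ← map_nsmul, ← map_nsmul, hpT, map_zero, map_zero]
  have := line_fix nf hp hp0 ha₆ (σ : K →+* K) hσv hζ hσζ hT (hG hT) hpT hpT' hw
  rw [← hT', this]

/-- **KUM**, Galois form: if `p • Q` is `σ`-fixed, `Q ∈ E1`, and `σ` fixes `ζ_p` and a `p`-th
root of the unit `w (p • Q)`, then `σ` fixes `Q`. -/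
theorem kum_fix_map (v : Valuation K Γ₀) (W' : Affine R) {r t α β : K}
    (nf : NodalNF v ((transl r t) • (W'⁄K)).toAffine α β)
    {p : ℕ} (hp : p.Prime) (hp0 : (p : K) ≠ 0)
    (ha₆ : v ((transl r t) • (W'⁄K)).a₆ ≤ v (p : K) ^ 2) (hvp : v (p : K) < 1)
    (σ : K →ₐ[S] K) (hσv : ∀ a : K, v (σ a) = v a)
    (hσr : σ r = r) (hσt : σ t = t) (hσα : σ α = α) (hσβ : σ β = β)
    {ζ a' : K} (hζ : IsPrimitiveRoot ζ p) (hσζ : σ ζ = ζ) (hσa : σ a' = a')
    {Q₀ : ((transl r t) • (W'⁄K)).toAffine.Point} (hQ : InG1 v Q₀)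
    (hθ : Point.map σ (p • vcHom (W₁ := (W'⁄K)) (transl r t) rfl Q₀)
      = p • vcHom (W₁ := (W'⁄K)) (transl r t) rfl Q₀)
    (ha' : a' ^ p = nodeChar ((transl r t) • (W'⁄K)).toAffine α β (p • Q₀)) :
    Point.map σ (vcHom (W₁ := (W'⁄K)) (transl r t) rfl Q₀)
      = vcHom (W₁ := (W'⁄K)) (transl r t) rfl Q₀ := by
  obtain ⟨Q₀', hQ', hw, hG⟩ := exists_transl_img v W' σ hσv hσr hσt hσα hσβ Q₀
  have hpQ : p • Q₀' = p • Q₀ := by
    apply vcHom_injective (W₁ := (W'⁄K)) (transl r t) rfl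
    rw [map_nsmul, hQ', ← map_nsmul, hθ, map_nsmul]
  have := kum_fix nf hp hp0 ha₆ hvp (σ : K →+* K) hσv hζ hσζ hσa hQ (hG hQ) hpQ ha' hw
  rw [← hQ', this]

end Fermat.Agent.R38T
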