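import Mathlib
import Fermat.Agent.R38.T.Defs
import Fermat.Agent.R38.T.KumMap
import Fermat.Agent.Lib.MultRed.NormalQbar
import Fermat.Agent.Lib.MultRed.DecompQbar

/-!
# Row 38, block T: the leaf `LeafKUM` at the `Q̄` level (owner: helper39)

From helper77's `kum_fix_map`, `line_fix_map`, `exists_transl_img` (`KumMap.lean`) and the nodal
normal form at a multiplicative prime (`exists_nodalNF`): for `W / ℤ` with multiplicative
reduction at the odd prime `p` and `p² ∣ Δ`, the approximate character `w` (the tangent ratio of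
the nodal normal form, transported to the original model) satisfies `LeafKUM W p A`.
-/

set_option autoImplicit false
set_option linter.unusedSectionVars false

open WeierstrassCurve WeierstrassCurve.Affine

namespace Fermat.Agent.R38T

open S05H5 S05H65 S05H75 Fermat.Agent.MultRed Fermat.Agent.VarChange

section

variable (W : WeierstrassCurve ℤ) {p : ℕ} [Fact p.Prime] (hΔ : (p : ℤ) ∣ W.Δ)
  (hc₄ : ¬ (p : ℤ) ∣ W.c₄)
  (A : ValuationSubring (AlgebraicClosure ℚ)) (hA : A.LiesOverPrime p)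

include hΔ hc₄ hA

/-- **the leaf KUM + LINE at the `Q̄` level** -/
theorem leafKUM (hΔ2 : (p : ℤ) ^ 2 ∣ W.Δ) : LeafKUM W p A := by
  have hp : p.Prime := Fact.out
  obtain ⟨r, t, α, β, hr, ht, nf, hfix⟩ := exists_nodalNF W hΔ hc₄ A hA
  have : Algebra.IsAlgebraic ℚ (AlgebraicClosure ℚ) := AlgebraicClosure.isAlgebraic ℚ
  have hp0 : ((p : ℕ) : AlgebraicClosure ℚ) ≠ 0 := Nat.cast_ne_zero.mpr hp.ne_zero
  have hvp : A.valuation ((p : ℕ) : AlgebraicClosure ℚ) < 1 := A.mem_nonunits_iff.mp hA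
  -- the valuation of `a₆`
  have hΔE : ((W.map (Int.castRingHom ℚ))⁄(AlgebraicClosure ℚ)).Δ
      = ((W.Δ : ℤ) : AlgebraicClosure ℚ) := by
    rw [baseChange_map_int]
    show (W.map (algebraMap ℤ (AlgebraicClosure ℚ))).Δ = _
    rw [WeierstrassCurve.map_Δ, eq_intCast]
  have ha₆2 : A.valuation ((transl r t) • ((W.map (Int.castRingHom ℚ))⁄(AlgebraicClosure ℚ))).a₆
      ≤ A.valuation ((p : ℕ) : AlgebraicClosure ℚ) ^ 2 := by
    have h1 := nf.v_Δ
    have h2 : ((transl r t) • ((W.map (Int.castRingHom ℚ))⁄(AlgebraicClosure ℚ))).toAffine.Δ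
        = ((W.map (Int.castRingHom ℚ))⁄(AlgebraicClosure ℚ)).Δ := transl_Δ _ r t
    rw [h2, hΔE] at h1
    rw [← h1]
    obtain ⟨m, hm⟩ := hΔ2
    rw [hm]
    push_cast
    rw [map_mul, map_pow]
    calc A.valuation (p : AlgebraicClosure ℚ) ^ 2 * A.valuation (m : AlgebraicClosure ℚ)
        ≤ A.valuation (p : AlgebraicClosure ℚ) ^ 2 * 1 := mul_le_mul' le_rfl (vle_intCast _ m)
      _ = A.valuation (p : AlgebraicClosure ℚ) ^ 2 := mul_one _
  have ha₆1 : A.valuation ((transl r t) • ((W.map (Int.castRingHom ℚ))⁄(AlgebraicClosure ℚ))).a₆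
      ≤ A.valuation ((p : ℕ) : AlgebraicClosure ℚ) := by
    refine le_trans ha₆2 ?_
    rw [pow_two]
    calc A.valuation (p : AlgebraicClosure ℚ) * A.valuation (p : AlgebraicClosure ℚ)
        ≤ A.valuation (p : AlgebraicClosure ℚ) * 1 := mul_le_mul' le_rfl hvp.le
      _ = A.valuation (p : AlgebraicClosure ℚ) := mul_one _
  -- the inverse of the translation
  have hex : ∀ P : ((W.map (Int.castRingHom ℚ))⁄(AlgebraicClosure ℚ)).Point,
      ∃ P₀ : ((transl r t) • ((W.map (Int.castRingHom ℚ))⁄(AlgebraicClosure ℚ))).toAffine.Point,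
        vcHom (W₁ := ((W.map (Int.castRingHom ℚ))⁄(AlgebraicClosure ℚ))) (transl r t) rfl P₀ = P :=
    fun P => exists_vcHom_eq _ r t P
  choose f hf using hex
  have hinj := vcHom_injective (W₁ := ((W.map (Int.castRingHom ℚ))⁄(AlgebraicClosure ℚ)))
    (transl r t) rfl
  have hfG : ∀ P : ((W.map (Int.castRingHom ℚ))⁄(AlgebraicClosure ℚ)).Point,
      InG1 A.valuation P → InG1 A.valuation (f P) := by
    intro P hP
    rw [← inG1_vcHom_transl_iff A.valuation _ t hr, hf]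
    exact hP
  have hfn : ∀ (n : ℕ) (P : ((W.map (Int.castRingHom ℚ))⁄(AlgebraicClosure ℚ)).Point),
      f (n • P) = n • f P := by
    intro n P
    apply hinj
    rw [hf, map_nsmul, hf]
  -- the Galois data
  have hσdata : ∀ σ : AlgebraicClosure ℚ ≃ₐ[ℚ] AlgebraicClosure ℚ, σ ∈ A.inertiaSubgroupIn ℚ →
      (∀ a : AlgebraicClosure ℚ, A.valuation (σ.toAlgHom a) = A.valuation a) ∧
        σ.toAlgHom r = r ∧ σ.toAlgHom t = t ∧ σ.toAlgHom α = α ∧ σ.toAlgHom β = β := by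
    intro σ hσ
    obtain ⟨h1, h2, h3, h4⟩ := hfix σ hσ
    exact ⟨fun a => Fermat.Agent.S13Two.decomp_val_eq A σ (inertiaIn_mem_decomp A σ hσ) a,
      h1, h2, h3, h4⟩
  refine ⟨fun P => nodeChar ((transl r t) •
    ((W.map (Int.castRingHom ℚ))⁄(AlgebraicClosure ℚ))).toAffine α β (f P), ?_, ?_, ?_, ?_⟩
  · intro Q hQ
    exact ⟨nf.v_nodeChar (hfG Q hQ), nf.v_nodeChar_sub_one_lt (hfG Q hQ)⟩
  · intro σ hσ Q hQ
    obtain ⟨hσv, hσr, hσt, hσα, hσβ⟩ := hσdata σ hσ
    obtain ⟨X₀', h1, h2, -⟩ := exists_transl_img (S := ℚ) A.valuation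
      (W.map (Int.castRingHom ℚ)).toAffine σ.toAlgHom hσv hσr hσt hσα hσβ (f Q)
    rw [hf] at h1
    have e : f (σ • Q) = X₀' := by
      apply hinj
      rw [hf, h1]
      rfl
    show nodeChar _ α β (f (σ • Q)) = σ (nodeChar _ α β (f Q))
    rw [e, h2]
    rfl
  · intro Q hQ σ hσ hθ ζ a' hζ hσζ ha' hσa
    obtain ⟨hσv, hσr, hσt, hσα, hσβ⟩ := hσdata σ hσ
    have key := kum_fix_map (S := ℚ) A.valuation (W.map (Int.castRingHom ℚ)).toAffine nf hp hp0
      ha₆2 hvp σ.toAlgHom hσv hσr hσt hσα hσβ hζ hσζ hσa (hfG Q hQ)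
      (by rw [hf]; exact hθ) (by rw [← hfn]; exact ha')
    rw [hf] at key
    exact key
  · intro T hT hpT σ hσ ζ hζ hσζ
    obtain ⟨hσv, hσr, hσt, hσα, hσβ⟩ := hσdata σ hσ
    have hpT₀ : p • f T = 0 := by
      rw [← hfn, hpT]
      apply hinj
      rw [hf, map_zero]
    have key := line_fix_map (S := ℚ) A.valuation (W.map (Int.castRingHom ℚ)).toAffine nf hp hp0
      ha₆1 σ.toAlgHom hσv hσr hσt hσα hσβ hζ hσζ (hfG T hT) hpT₀
    rw [hf] at key
    exact key

end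

end Fermat.Agent.R38T
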