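import Mathlib
import Fermat.Agent.R38.T.Asm
import Fermat.Agent.R38.T.KumQ
import Fermat.Agent.R38.T.KillQ
import Fermat.Agent.R38.T.FreyData

/-!
# Row 38, block T: the Kummer form of "peu ramifie" from the leaf `LeafPT` (owner: helper39)

* `peuKummer_of_leafPT`: for `W / ℤ` with multiplicative reduction at the odd prime `p` and
  `p² ∣ Δ`, the leaf `LeafPT W p A` gives `PeuKummer (W.map (Int.castRingHom ℚ)) p A`
  (the leaves KUM, LINE, KILL, NOPT are proved: `KumQ.lean`, `KillQ.lean`).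
* `peuFrey_of_leafPT`: the same for the Frey curve of a Frey package with `p ∣ a b c`.
-/

set_option autoImplicit false
set_option linter.unusedSectionVars false

open WeierstrassCurve WeierstrassCurve.Affine

namespace Fermat.Agent.R38T

open S05H75 Fermat.Agent.MultRed

theorem peuKummer_of_leafPT (W : WeierstrassCurve ℤ) {p : ℕ} (hp : p.Prime)
    (hΔ : (p : ℤ) ∣ W.Δ) (hc₄ : ¬ (p : ℤ) ∣ W.c₄) (hΔ2 : (p : ℤ) ^ 2 ∣ W.Δ)
    (A : ValuationSubring (AlgebraicClosure ℚ)) (hA : A.LiesOverPrime p)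
    (hPT : LeafPT W p A) : PeuKummer (W.map (Int.castRingHom ℚ)) p A := by
  have : Fact p.Prime := ⟨hp⟩
  exact peuKummer_of_leaves W A hp hPT (leafKILL W hΔ hc₄ A hA) (leafNOPT W hΔ hc₄ A hA)
    (leafKUM W hΔ hc₄ A hA hΔ2)

/-- `p² ∣ Δ` for the Frey curve at `p ∣ a b c` -/
theorem freyData_sq_dvd_Δ (P : FreyPackage) (hp : (P.p : ℤ) ∣ P.a * P.b * P.c) :
    (P.p : ℤ) ^ 2 ∣ P.freyCurveInt.Δ := by
  obtain ⟨m, u, hm, -, hΔ⟩ := freyData_Δ_eq P hp
  rw [hΔ]
  have h2 : 2 ≤ P.p * m := by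
    have := P.pp.two_le
    nlinarith
  exact Dvd.dvd.mul_right (pow_dvd_pow _ h2) _

theorem peuFrey_of_leafPT (P : FreyPackage) (hp : (P.p : ℤ) ∣ P.a * P.b * P.c)
    (A : ValuationSubring (AlgebraicClosure ℚ)) (hA : A.LiesOverPrime P.p)
    (hPT : LeafPT P.freyCurveInt P.p A) : PeuKummer P.freyCurve P.p A := by
  have h := peuKummer_of_leafPT P.freyCurveInt P.pp (freyData_dvd_Δ P hp)
    (freyData_not_dvd_c₄ P hp) (freyData_sq_dvd_Δ P hp) A hA hPT
  rwa [Fermat.Agent.FreyLib.freyCurveInt_map] at h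

end Fermat.Agent.R38T
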