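/-
Row 38 (target S44), block T (Frey curve at `p`, sub-architect helper77), leaf `LeafPT`
(helper4): PT + MATCH on the original integral model.

`W / ℤ`, `p` an odd prime of multiplicative reduction with `v_p(Δ) = p m`, `A ∣ p` a place of `ℚ̄`.
There is a point `X` of `W(ℚ̄)`, fixed by the inertia group of `A`, with `p • X ∈ E⁰`, such that for
every `x ∈ E[p]` outside the kernel of reduction some multiple `j • x` (`p ∤ j`) lies in `X + E⁰`.

Proof: the nodal normal form of `W` at `A` (`Lib/MultRed/NormalQbar.exists_nodalNF`), the point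
of `PtQbar.lean` with `x`-coordinate `p ^ m` on the translate, and the component function `rhoN` of
`Lib/MultRed/Comp/Rho.lean`: `rhoN X = g` with `p • g = w(Δ)`, `rhoN (p • X) = 0`, and for a
`p`-torsion point `x` outside `E⁰` some multiple of `x` has `rhoN = g` (`Comp/Cyc.cyc_structure`),
so `rhoN (X - j • x) = 0` or `rhoN (X + j • x) = 0` (`rhoN_rel`).  `E⁰[p] ⊆ E¹`:
`Lib/MultRed/E0TorsQbar.inG1_of_inE0v_of_pow_smul`.
-/
import Mathlib
import Fermat.Agent.R38.T.Defs
import Fermat.Agent.R38.T.PtQbar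
import Fermat.Agent.Lib.MultRed.E0TorsQbar
import Fermat.Agent.Lib.MultRed.Comp.Cyc
import Fermat.Agent.Lib.MultRed.Comp.Rho
import Fermat.Agent.Lib.MultRed.Comp.Half
import Fermat.Agent.S05.H27.OfValuation

set_option autoImplicit false
set_option linter.unusedSectionVars false

open WeierstrassCurve WeierstrassCurve.Affine

namespace Fermat.Agent.R38T

open Fermat.Agent.MultRed Fermat.Agent.MultRed.Comp S05H65 S05H27 Fermat.Agent.VarChange S05H5
  S05H75

local notation "Qb" => AlgebraicClosure ℚ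

section Abs

variable {K : Type*} [Field K] {G : Type*} [AddCommGroup G] [LinearOrder G] [IsOrderedAddMonoid G]
  {V : AVal K G} {h : G}

/-- the clamped valuation of an element of the maximal ideal is positive -/
theorem lpt_cl_pos_of_gt (hh : 0 < h) {x : K} (hx : V.Gt x 0) : 0 < V.cl h x := by
  rcases AVal.regime V h x with ⟨α, h1, hα⟩ | ⟨α, h1, hα, hα'⟩ | h1
  · exact absurd (h1.not_gt hx) (not_lt.mpr hα)
  · rw [AVal.cl_of_ex h1]
    grind
  · rw [AVal.cl_of_ge hh h1]
    exact hh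

/-- a multiple of `2h` in `[0, h]` is zero -/
theorem lpt_eq_zero_of_zsmul {a : G} (hh : 0 < h) (h0 : 0 ≤ a) (h1 : a ≤ h) {k : ℤ}
    (hk : a = k • (h + h)) : a = 0 := by
  have hN : 0 < h + h := add_pos hh hh
  rcases lt_trichotomy k 0 with hk0 | hk0 | hk0
  · exfalso
    have h2 : k • (h + h) ≤ (-1 : ℤ) • (h + h) :=
      zsmul_le_zsmul_left hN.le (by omega)
    rw [neg_smul, one_smul, ← hk] at h2
    have h3 : -(h + h) < 0 := neg_neg_of_pos hN
    exact absurd h0 (not_le.mpr (h2.trans_lt h3))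
  · rw [hk, hk0, zero_smul]
  · exfalso
    have h2 : (1 : ℤ) • (h + h) ≤ k • (h + h) :=
      zsmul_le_zsmul_left hN.le (by omega)
    rw [one_smul, ← hk] at h2
    have h3 : h < h + h := lt_add_of_pos_left h hh
    exact absurd (h3.trans_le h2) (not_lt.mpr h1)

end Abs

section Rho

variable {K : Type*} [Field K] [DecidableEq K]
  {G : Type*} [AddCommGroup G] [LinearOrder G] [IsOrderedAddMonoid G]
  {W : WeierstrassCurve.Affine K} {V : AVal K G} {b₂ a₆ : K} {h : G}

/-- if `p • rhoN X = 2h` then `rhoN (p • X) = 0` -/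
theorem lpt_rhoN_nsmul_eq_zero (N : NodalB W b₂ a₆) (C : CoreN V b₂ a₆ h) (X : W.Point) {p : ℕ}
    (hX : p • rhoN V h X = h + h) : rhoN V h (p • X) = 0 := by
  have hh := C.hh
  have h1 := (rho_nsmul_simN (rhoN (W := W) V h) (h + h) rhoN_zero (rhoN_pairRel N C) X p).1
  rw [hX] at h1
  obtain ⟨m, h2 | h2⟩ := h1
  · refine lpt_eq_zero_of_zsmul hh (rhoN_nonneg hh _) (rhoN_le hh _) (k := m + 1) ?_
    rw [h2, add_smul, one_smul]
    abel
  · refine lpt_eq_zero_of_zsmul hh (rhoN_nonneg hh _) (rhoN_le hh _) (k := m - 1) ?_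
    rw [h2, sub_smul, one_smul]
    abel

/-- MATCH, abstract form: two points in the same component or in opposite components -/
theorem lpt_rhoN_match (N : NodalB W b₂ a₆) (C : CoreN V b₂ a₆ h) (X Y : W.Point)
    (hXY : rhoN V h X = rhoN V h Y) : rhoN V h (X - Y) = 0 ∨ rhoN V h (X + Y) = 0 := by
  have hr := rhoN_rel (V := V) N C X Y
  rw [hXY] at hr
  rcases hr with ⟨h1, -⟩ | ⟨h1, -⟩
  · right
    rw [h1, sub_self, max_self]
  · left
    rw [h1, sub_self, max_self]

end Rho

section Node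

variable {K : Type*} [Field K] [DecidableEq K] {Γ₀ : Type*} [LinearOrderedCommGroupWithZero Γ₀]
  {v : Valuation K Γ₀} {W : WeierstrassCurve.Affine K} {h : Additive (Γ₀ˣ)ᵒᵈ}

/-- a node point has positive component function -/
theorem lpt_rhoN_pos_of_isNodePt (hh : 0 < h) {P : W.Point} (hP : IsNodePt v P) :
    0 < rhoN (ofValuation v) h P := by
  rcases P with _ | ⟨x, y, hxy⟩
  · exact absurd hP (fun h => h)
  · have hne : (Point.some x y hxy : W.Point) ≠ 0 := by
      intro h0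
      exact Point.some_ne_zero _ h0
    rw [rhoN_of_ne hne]
    apply lpt_cl_pos_of_gt hh
    rw [← lt_one_iff_gt]
    exact hP.1

theorem lpt_not_isNodePt_of_rhoN (hh : 0 < h) {P : W.Point}
    (hP : rhoN (ofValuation v) h P = 0) : ¬ IsNodePt v P := by
  intro hn
  have := lpt_rhoN_pos_of_isNodePt (h := h) hh hn
  rw [hP] at this
  exact lt_irrefl _ this

/-- the parameters of the component function of a curve in nodal normal form -/
theorem lpt_exists_coreN [IsAlgClosed K] {α β : K} (nf : NodalNF v W α β) (ha₆0 : W.a₆ ≠ 0) :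
    ∃ h : Additive (Γ₀ˣ)ᵒᵈ, CoreN (ofValuation v) W.b₂ W.a₆ h := by
  obtain ⟨δ, hδ⟩ := IsAlgClosed.exists_pow_nat_eq W.a₆ (n := 2) (by norm_num)
  have hδ0 : δ ≠ 0 := by
    rintro rfl
    apply ha₆0
    rw [← hδ]
    ring
  have ha₆ : (ofValuation v).Ex W.a₆ ((ofValuation v).w δ + (ofValuation v).w δ) := by
    rw [← hδ]
    exact (AVal.ex_of_ne hδ0).sq
  have hh : 0 < (ofValuation v).w δ := by
    have h1 : (ofValuation v).Gt W.a₆ 0 := (lt_one_iff_gt v _).mp nf.va₆
    have h2 := ha₆.not_gt h1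
    by_contra hc
    rw [not_lt] at hc
    have : (ofValuation v).w δ + (ofValuation v).w δ ≤ 0 := add_nonpos hc hc
    exact absurd h2 (not_lt.mpr this)
  have hb₂ : (ofValuation v).Ex W.b₂ 0 := by
    rw [← eq_one_iff_ex]
    have hb : W.b₂ = (α - β) ^ 2 := by
      have h1 := nf.hsum
      have h2 := nf.hprod
      simp only [WeierstrassCurve.b₂]
      have ha₁ : W.a₁ = -(α + β) := by rw [h1]; ring
      have ha₂ : W.a₂ = -(α * β) := by rw [h2]; ring
      rw [ha₁, ha₂]
      ring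
    rw [hb, map_pow, nf.vαβ, one_pow]
  exact ⟨(ofValuation v).w δ,
    { h2 := ge_ofNat (ofValuation v) 2
      hb₂ := hb₂
      ha₆ := ha₆
      hh := hh }⟩

end Node

section Core

variable {K : Type*} [Field K] [DecidableEq K] [IsAlgClosed K] {A : ValuationSubring K}

/-- **PT + MATCH, abstract form**: `E` an integral model, its translate `E'` in nodal normal form,
`X'` a point of `E'` whose `x`-coordinate has `v x ^ p = v Δ`, `E⁰[p] ⊆ E¹`. -/
theorem lpt_core (E : Affine K) (hint : IntCoeff A E) {r t α β : K} (hr : A.valuation r ≤ 1)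
    (ht : A.valuation t ≤ 1) (nf : NodalNF A.valuation ((transl r t) • E).toAffine α β)
    (hΔ : E.Δ ≠ 0) {p : ℕ} (hp : p.Prime) (hp2 : p ≠ 2) {x₀ y₀ : K}
    (h₀ : ((transl r t) • E).toAffine.Nonsingular x₀ y₀)
    (hx₀ : A.valuation x₀ ^ p = A.valuation E.Δ)
    (hE0p : ∀ x : E.Point, p • x = 0 → InE0v A x → InG1 A.valuation x) :
    InE0v A (p • vcHom (W₁ := E) (transl r t) rfl (Point.some x₀ y₀ h₀)) ∧
      ∀ x : E.Point, p • x = 0 → ¬ InG1 A.valuation x →
        ∃ j : ℕ, ¬ p ∣ j ∧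
          InE0v A (vcHom (W₁ := E) (transl r t) rfl (Point.some x₀ y₀ h₀) - j • x) := by
  have hp3 : 3 ≤ p := by
    have := hp.two_le
    omega
  have hΔ' : ((transl r t) • E).Δ = E.Δ := pt_transl_Δ _ r t
  have ha₆0 : ((transl r t) • E).toAffine.a₆ ≠ 0 := by
    intro h0
    apply hΔ
    rw [← hΔ', Δ_of_normal _ nf.a₃ nf.a₄]
    have h0' : ((transl r t) • E).a₆ = 0 := h0
    rw [h0']
    ring
  have hx' : A.valuation x₀ ^ p = A.valuation ((transl r t) • E).toAffine.a₆ := by
    rw [hx₀, ← hΔ']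
    exact nf.v_Δ
  obtain ⟨h, C⟩ := lpt_exists_coreN nf ha₆0
  have hh := C.hh
  have N := nodalB_of_a₃_a₄ ((transl r t) • E).toAffine nf.a₃ nf.a₄
  obtain ⟨hρX, hpX⟩ := pt_rhoN A.valuation C hp3 h₀ hx'
  -- the bridge between the translate and the original model
  have bridge : ∀ P' : ((transl r t) • E).toAffine.Point,
      rhoN (ofValuation A.valuation) h P' = 0 → InE0v A (vcHom (W₁ := E) (transl r t) rfl P') := by
    intro P' hP'
    rw [← not_isSingPt_iff_inE0v]
    intro hs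
    exact lpt_not_isNodePt_of_rhoN hh hP'
      (isNodePt_of_isSingPt A.valuation E ((A.valuation_le_one_iff _).mpr hint.mem_a₁)
        ((A.valuation_le_one_iff _).mpr hint.mem_a₂) ((A.valuation_le_one_iff _).mpr hint.mem_a₃)
        ((A.valuation_le_one_iff _).mpr hint.mem_a₄) ((A.valuation_le_one_iff _).mpr hint.mem_a₆)
        hr ht nf P' hs)
  refine ⟨?_, ?_⟩
  · rw [← map_nsmul]
    exact bridge _ (lpt_rhoN_nsmul_eq_zero N C _ hpX)
  · intro x hx hxG
    obtain ⟨x', hx'x⟩ := exists_vcHom_eq E r t x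
    have hpx' : p • x' = 0 := by
      apply vcHom_injective (W₁ := E) (transl r t) rfl
      rw [map_nsmul, hx'x, hx, map_zero]
    have hsing : IsSingPt A.valuation x := by
      by_contra hns
      exact hxG (hE0p x hx ((not_isSingPt_iff_inE0v x).mp hns))
    have hnode : IsNodePt A.valuation x' :=
      isNodePt_of_isSingPt A.valuation E ((A.valuation_le_one_iff _).mpr hint.mem_a₁)
        ((A.valuation_le_one_iff _).mpr hint.mem_a₂) ((A.valuation_le_one_iff _).mpr hint.mem_a₃)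
        ((A.valuation_le_one_iff _).mpr hint.mem_a₄) ((A.valuation_le_one_iff _).mpr hint.mem_a₆)
        hr ht nf x' (by rw [hx'x]; exact hsing)
    have hρx' : rhoN (ofValuation A.valuation) h x' ≠ 0 :=
      ne_of_gt (lpt_rhoN_pos_of_isNodePt hh hnode)
    obtain ⟨g, i₀, hg0, hpg, hi₀, -⟩ := cyc_structure
      (rhoN (W := ((transl r t) • E).toAffine) (ofValuation A.valuation) h) h rhoN_zero
      (fun P => ⟨rhoN_nonneg hh P, rhoN_le hh P⟩) (rhoN_pairRel N C) hp hp2 x' hpx' hρx'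
    -- `rhoN X' = g`
    have hgX : rhoN (ofValuation A.valuation) h (Point.some x₀ y₀ h₀) = g := by
      have h1 : p • (rhoN (ofValuation A.valuation) h (Point.some x₀ y₀ h₀) - g) = 0 := by
        rw [smul_sub, hpX, hpg, sub_self]
      exact sub_eq_zero.mp (nsmul_eq_zero_imp hp.pos h1)
    have hi₀p : ¬ p ∣ i₀ := by
      rintro ⟨k, rfl⟩
      rw [mul_comm, mul_smul, hpx', smul_zero, rhoN_zero] at hi₀
      exact absurd hi₀.symm (ne_of_gt hg0)
    rcases lpt_rhoN_match N C (Point.some x₀ y₀ h₀) (i₀ • x') (hgX.trans hi₀.symm) with h1 | h1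
    · refine ⟨i₀, hi₀p, ?_⟩
      have := bridge _ h1
      rwa [map_sub, map_nsmul, hx'x] at this
    · refine ⟨(p - 1) * i₀, ?_, ?_⟩
      · intro hd
        rcases (Nat.Prime.dvd_mul hp).mp hd with h2 | h2
        · have := Nat.le_of_dvd (by omega) h2
          omega
        · exact hi₀p h2
      · have := bridge _ h1
        rw [map_add, map_nsmul, hx'x] at this
        have e : ((p - 1) * i₀) • x = -(i₀ • x) := by
          have h3 : ((p - 1) * i₀) • x + i₀ • x = 0 := by
            rw [← add_smul]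
            have : (p - 1) * i₀ + i₀ = i₀ * p := by
              have h4 : p - 1 + 1 = p := by omega
              calc (p - 1) * i₀ + i₀ = (p - 1 + 1) * i₀ := by ring
                _ = i₀ * p := by rw [h4, mul_comm]
            rw [this, mul_smul, hx, smul_zero]
          exact eq_neg_of_add_eq_zero_left h3
        rw [e, sub_neg_eq_add]
        exact this

end Core

section Main

/-- **leaf `LeafPT`** for an integral model with `Δ = p ^ (p m) u`, `p ∤ u`, `p ∤ c₄`, `p` odd. -/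
theorem leafPT (W : WeierstrassCurve ℤ) {p : ℕ} (hp : p.Prime) (hp2 : p ≠ 2)
    (A : ValuationSubring Qb) (hA : A.LiesOverPrime p) (hΔ : (p : ℤ) ∣ W.Δ)
    (hc₄ : ¬ (p : ℤ) ∣ W.c₄) {m : ℕ} {u : ℤ} (hu : ¬ (p : ℤ) ∣ u)
    (hΔm : W.Δ = (p : ℤ) ^ (p * m) * u) : LeafPT W p A := by
  classical
  have : Fact p.Prime := ⟨hp⟩
  obtain ⟨r, t, α, β, hr, ht, nf, hfix⟩ := exists_nodalNF W hΔ hc₄ A hA
  have hint := intCoeff_map_int W A
  obtain ⟨y, h₀, -, hXfix⟩ := pt_exists_Qbar W hp hp2 A hA hu hΔm nf hfix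
  have hp0 : (p : Qb) ≠ 0 := Nat.cast_ne_zero.mpr hp.ne_zero
  have hu0 : u ≠ 0 := by
    rintro rfl
    exact hu (dvd_zero _)
  have hΔE : ((W.map (Int.castRingHom ℚ))⁄Qb).Δ = (p : Qb) ^ (p * m) * ((u : ℤ) : Qb) := by
    rw [pt_Δ_map_int, hΔm]
    push_cast
    ring
  have hΔ0 : ((W.map (Int.castRingHom ℚ))⁄Qb).Δ ≠ 0 := by
    rw [hΔE]
    exact mul_ne_zero (pow_ne_zero _ hp0) (Int.cast_ne_zero.mpr hu0)
  have hx : A.valuation ((p : Qb) ^ m) ^ p = A.valuation ((W.map (Int.castRingHom ℚ))⁄Qb).Δ := by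
    rw [hΔE, map_mul, pt_val_intCast_eq_one hp A hA hu, mul_one, map_pow, map_pow, ← pow_mul,
      mul_comm m p]
  obtain ⟨h1, h2⟩ := lpt_core ((W.map (Int.castRingHom ℚ))⁄Qb).toAffine hint hr ht nf hΔ0 hp hp2
    h₀ hx (fun x hx h0 => inG1_of_inE0v_of_pow_smul W hΔ hc₄ A hA 1 x (by rwa [pow_one]) h0)
  exact ⟨_, hXfix, h1, h2⟩

end Main



end Fermat.Agent.R38T
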