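import Mathlib
import Fermat.Agent.R38.T.FinalOf
import Fermat.Agent.R38.T.LeafPt

/-!
# Row 38, block T: the Frey curve at `p ∣ a b c` is "peu ramifie" at `p` (owner: helper39)

`peuFrey : PeuFreyStatement`: for a Frey package `P` with `p ∣ a b c` and every place `A ∣ p` of
`Q̄` there is a unit `a` of the maximal unramified extension, `a ≡ 1` modulo the maximal ideal,
such that every element of the inertia group at `A` fixing `ζ_p` and a `p`-th root of `a` acts
trivially on the `p`-torsion of the Frey curve.

Leaves: `Kum.lean`, `KumMap.lean`, `Span.lean` (helper77), `Pt.lean`, `PtQbar.lean`, `LeafPt.lean`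
(helper4), `Kill.lean` (helper26), `FreyData.lean` (helper6),
`Defs.lean`, `Asm.lean`, `KumQ.lean`, `KillQ.lean`, `FinalOf.lean` (helper39).
-/

set_option autoImplicit false

open WeierstrassCurve WeierstrassCurve.Affine

namespace Fermat.Agent.R38T

/-- **block T**: the `p`-torsion of the Frey curve is "peu ramifie" at `p ∣ a b c` (Kummer form) -/
theorem peuFrey : PeuFreyStatement := by
  intro P hp A hA
  obtain ⟨m, u, -, hu, hΔm⟩ := freyData_Δ_eq P hp
  have hp2 : P.p ≠ 2 := by
    have := P.hp5
    omega
  exact peuFrey_of_leafPT P hp A hA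
    (leafPT P.freyCurveInt P.pp hp2 A hA (freyData_dvd_Δ P hp) (freyData_not_dvd_c₄ P hp) hu hΔm)

/-- the same for the integral model `W = P.freyCurveInt` -/
theorem peuFreyInt (P : FreyPackage) (hp : (P.p : ℤ) ∣ P.a * P.b * P.c)
    (A : ValuationSubring (AlgebraicClosure ℚ)) (hA : A.LiesOverPrime P.p) :
    PeuKummer (P.freyCurveInt.map (Int.castRingHom ℚ)) P.p A := by
  rw [Fermat.Agent.FreyLib.freyCurveInt_map]
  exact peuFrey P hp A hA

end Fermat.Agent.R38T
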