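import Mathlib
import Fermat.Agent.R38.T.Defs
import Fermat.Agent.R38.T.Kill
import Fermat.Agent.Lib.MultRed.NotInG1
import Fermat.Agent.Lib.MultRed.Main

/-!
# Row 38, block T: leaves KILL and NOPT for a translate in nodal normal form (helper26)

Transport of `R38T.kill`, `R38T.nopt` (nodal normal form) along an integral translation, for a
curve over any valued field (points with nonsingular reduction = `¬ IsSingPt`):
`kill_of_not_isSingPt`, `nopt_of_not_isSingPt`.

The leaves `LeafKILL W p A`, `LeafNOPT W p A` over `ℚ̄` themselves are helper39's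
`R38/T/KillQ.lean` (`leafKILL`, `leafNOPT`); this file does NOT redeclare them.
-/

set_option autoImplicit false
set_option linter.unusedSectionVars false
set_option linter.style.haveILetI false

open WeierstrassCurve WeierstrassCurve.Affine

namespace Fermat.Agent.R38T

open Fermat.Agent.MultRed S05H5 S05H65 S05H75 Fermat.Agent.VarChange

section General

variable {K : Type*} [Field K] [DecidableEq K] {A : ValuationSubring K}

/-- the preimage of a point with nonsingular reduction under an integral translation to a nodal
normal form does not reduce to the node -/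
lemma kill_exists_translate (W : Affine K) {r t α β : K} (hr : A.valuation r ≤ 1)
    (nf : NodalNF A.valuation ((transl r t) • W).toAffine α β) {Y : W.Point}
    (hns : ¬ IsSingPt A.valuation Y) :
    ∃ Y' : ((transl r t) • W).toAffine.Point,
      vcHom (W₁ := W) (transl r t) rfl Y' = Y ∧ ¬ IsNodePt A.valuation Y' := by
  obtain ⟨Y', hY'⟩ := exists_vcHom_eq W r t Y
  refine ⟨Y', hY', fun hn => hns ?_⟩
  rw [← hY']
  exact isSingPt_vcHom_of_isNodePt A.valuation W hr nf Y' hn

/-- **KILL** for a curve with a translate in nodal normal form -/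
theorem kill_of_not_isSingPt [CharZero K] [Algebra.IsAlgebraic ℚ K] (W : Affine K)
    {r t α β : K} (hr : A.valuation r ≤ 1)
    (nf : NodalNF A.valuation ((transl r t) • W).toAffine α β) {p : ℕ} (hp : p.Prime)
    (hvp : A.valuation (p : K) < 1) {Y : W.Point} (hns : ¬ IsSingPt A.valuation Y) :
    ∃ m : ℕ, ¬ p ∣ m ∧ InG1 A.valuation (m • Y) := by
  obtain ⟨Y', hY', hnode⟩ := kill_exists_translate W hr nf hns
  obtain ⟨m, hpm, hm⟩ := kill nf hp hvp hnode
  refine ⟨m, hpm, ?_⟩
  rw [← hY', ← map_nsmul, inG1_vcHom_transl_iff A.valuation W t hr]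
  exact hm

/-- **NOPT** for a curve with a translate in nodal normal form -/
theorem nopt_of_not_isSingPt (W : Affine K) {r t α β : K} (hr : A.valuation r ≤ 1)
    (nf : NodalNF A.valuation ((transl r t) • W).toAffine α β) {p : ℕ} (hp : p.Prime)
    (hvp : A.valuation (p : K) < 1) {Y : W.Point} (hns : ¬ IsSingPt A.valuation Y)
    (hpY : InG1 A.valuation (p • Y)) : InG1 A.valuation Y := by
  obtain ⟨Y', hY', hnode⟩ := kill_exists_translate W hr nf hns
  rw [← hY', ← map_nsmul, inG1_vcHom_transl_iff A.valuation W t hr] at hpY
  rw [← hY', inG1_vcHom_transl_iff A.valuation W t hr]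
  exact nopt nf hp hvp hnode hpY

end General

end Fermat.Agent.R38T
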