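/-
Row 38 (target S44), block T (Frey curve at `p`, sub-architect helper77), leaf PT (helper4):
an inertia-fixed point in the component of order `p`.

Abstract setting (as `Lib/MultRed/Unipotent.lean`): `v` a valuation on an algebraically closed
field `K`, `v 2 = 1`, `W` a curve in nodal normal form (`NodalNF v W α β`).

* `pt_exists` : for `x ≠ 0` with `v a₆ < v x ^ 2 < 1` there is `y` such that `(x, y)` is a
  nonsingular point of `W` reducing to the node (`v y < 1`), and `y` is fixed by every ring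
  endomorphism `σ` of `K` which is trivial modulo the maximal ideal and fixes `x, α, β, a₆`;
* `pt_exists_pow` : the same for `v x ^ p = v a₆`, `p ≥ 3`, `a₆ ≠ 0` (the component of order `p`);
* `pt_rhoN` : in that case `rhoN X = w x` and `p • rhoN X = h + h` (`Lib/MultRed/Comp/Rho`);
* `pt_exists_map` : the same in the setting of `Lib/MultRed/Unipotent.lean` (`W' : Affine R`,
  `K ⊇ R`, the translate `transl r t • (W'⁄K)` in nodal normal form): the point
  `X = vcHom (transl r t) rfl (x, y)` of `W'⁄K` is fixed by `Point.map σ`.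
-/
import Mathlib
import Fermat.Agent.Lib.MultRed.Core
import Fermat.Agent.Lib.MultRed.NotInG1
import Fermat.Agent.Lib.MultRed.Comp.Rho
import Fermat.Agent.Lib.MultRed.Unipotent
import Fermat.Agent.S05.H27.OfValuation

set_option autoImplicit false
set_option linter.unusedSectionVars false

open WeierstrassCurve WeierstrassCurve.Affine

namespace Fermat.Agent.R38T

open Fermat.Agent.MultRed Fermat.Agent.MultRed.Comp S05H65 S05H27 Fermat.Agent.VarChange

section Abstract

variable {K : Type*} [Field K] {Γ₀ : Type*} [LinearOrderedCommGroupWithZero Γ₀]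
  {v : Valuation K Γ₀} {W : Affine K} {α β : K}

/-- in nodal normal form, the equation is `(2 y + a₁ x)² = x² (α - β)² + 4 x³ + 4 a₆`. -/
theorem pt_equation_of_sq (nf : NodalNF v W α β) (h2 : (2 : K) ≠ 0) {x y : K}
    (h : (2 * y + W.a₁ * x) ^ 2 = x ^ 2 * (α - β) ^ 2 + 4 * x ^ 3 + 4 * W.a₆) :
    W.Equation x y := by
  rw [Affine.equation_iff, nf.a₃, nf.a₄]
  have ha₁ : W.a₁ = -(α + β) := by rw [nf.hsum]; ring
  have ha₂ : W.a₂ = -(α * β) := by rw [nf.hprod]; ring
  have h4 : (4 : K) ≠ 0 := by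
    have : (4 : K) = 2 * 2 := by norm_num
    rw [this]
    exact mul_ne_zero h2 h2
  have key : 4 * (y ^ 2 + W.a₁ * x * y + 0 * y) = 4 * (x ^ 3 + W.a₂ * x ^ 2 + 0 * x + W.a₆) := by
    rw [ha₁] at h ⊢
    rw [ha₂]
    linear_combination h
  exact mul_left_cancel₀ h4 key

/-- a ring endomorphism which is trivial modulo the maximal ideal fixes the square roots of the
units it fixes (`v 2 = 1`). -/
theorem pt_sqrt_fixed (h2 : v 2 = 1) {s : K} (hs : v s = 1) (σ : K →+* K)
    (hσ : ∀ a, v a ≤ 1 → v (σ a - a) < 1) (hfix : σ (s ^ 2) = s ^ 2) : σ s = s := by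
  rw [map_pow] at hfix
  rcases sq_eq_sq_iff_eq_or_eq_neg.mp hfix with h1 | h1
  · exact h1
  · exfalso
    have h3 := hσ s hs.le
    rw [h1] at h3
    have h4 : -s - s = -(2 * s) := by ring
    rw [h4, Valuation.map_neg, map_mul, h2, hs, mul_one] at h3
    exact lt_irrefl _ h3

/-- **PT, abstract form.** -/
theorem pt_exists [IsAlgClosed K] (nf : NodalNF v W α β) (h2 : v 2 = 1) {x : K} (hx0 : x ≠ 0)
    (hx1 : v x < 1) (hxa : v W.a₆ < v x ^ 2) :
    ∃ (y : K) (_ : W.Nonsingular x y), v y < 1 ∧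
      ∀ σ : K →+* K, (∀ a, v a ≤ 1 → v (σ a - a) < 1) → σ x = x → σ α = α → σ β = β →
        σ W.a₆ = W.a₆ → σ y = y := by
  have h20 : (2 : K) ≠ 0 := by
    intro h0
    rw [h0, map_zero] at h2
    exact zero_ne_one h2
  have hαβ0 : α - β ≠ 0 := by
    intro h0
    have := nf.vαβ
    rw [h0, map_zero] at this
    exact zero_ne_one this
  have hvx0 : v x ≠ 0 := (Valuation.ne_zero_iff v).mpr hx0
  have hd0 : x ^ 2 * (α - β) ^ 2 ≠ 0 := mul_ne_zero (pow_ne_zero 2 hx0) (pow_ne_zero 2 hαβ0)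
  have hvd : v (x ^ 2 * (α - β) ^ 2) = v x ^ 2 := by
    rw [map_mul, map_pow, map_pow, nf.vαβ, one_pow, mul_one]
  -- the small term
  set ε : K := (4 * x ^ 3 + 4 * W.a₆) / (x ^ 2 * (α - β) ^ 2) with hε
  have hv4 : v (4 : K) ≤ 1 := by
    have : (4 : K) = 2 * 2 := by norm_num
    rw [this, map_mul, h2, mul_one]
  have hnum : v (4 * x ^ 3 + 4 * W.a₆) < v x ^ 2 := by
    refine lt_of_le_of_lt (Valuation.map_add _ _ _) (max_lt ?_ ?_)
    · rw [map_mul, map_pow]
      calc v 4 * v x ^ 3 ≤ 1 * v x ^ 3 := mul_le_mul' hv4 le_rfl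
        _ = v x ^ 3 := one_mul _
        _ < v x ^ 2 := pow_lt_pow_right_of_lt_one₀ (zero_lt_iff.mpr hvx0) hx1 (by norm_num)
    · rw [map_mul]
      calc v 4 * v W.a₆ ≤ 1 * v W.a₆ := mul_le_mul' hv4 le_rfl
        _ = v W.a₆ := one_mul _
        _ < v x ^ 2 := hxa
  have hvε : v ε < 1 := by
    rw [hε, map_div₀, hvd]
    exact (div_lt_one₀ (zero_lt_iff.mpr (pow_ne_zero 2 hvx0))).mpr hnum
  obtain ⟨s, hs⟩ := IsAlgClosed.exists_pow_nat_eq (1 + ε) (n := 2) (by norm_num)
  have hvs2 : v (s ^ 2) = 1 := by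
    rw [hs]
    have : v (1 + ε) = v 1 := Valuation.map_add_eq_of_lt_left v (by rw [map_one]; exact hvε)
    rw [this, map_one]
  have hvs : v s = 1 := by
    rw [map_pow] at hvs2
    exact (pow_eq_one_iff_of_nonneg zero_le (by norm_num)).mp hvs2
  have hs0 : s ≠ 0 := by
    intro h0
    rw [h0, map_zero] at hvs
    exact zero_ne_one hvs
  -- the point
  set y : K := (x * (α - β) * s - W.a₁ * x) / 2 with hy
  have hlin : 2 * y + W.a₁ * x = x * (α - β) * s := by
    rw [hy]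
    field_simp
    ring
  have hsq : (2 * y + W.a₁ * x) ^ 2 = x ^ 2 * (α - β) ^ 2 + 4 * x ^ 3 + 4 * W.a₆ := by
    rw [hlin, mul_pow, mul_pow, hs, hε]
    field_simp
    ring
  have heq : W.Equation x y := pt_equation_of_sq nf h20 hsq
  have hns : W.Nonsingular x y := by
    rw [Affine.nonsingular_iff]
    refine ⟨heq, Or.inr ?_⟩
    intro h0
    have h1 : 2 * y + W.a₁ * x + W.a₃ = 0 := by linear_combination h0
    rw [nf.a₃, add_zero, hlin] at h1
    exact mul_ne_zero (mul_ne_zero hx0 hαβ0) hs0 h1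
  have hvy : v y < 1 := by
    rw [hy, map_div₀, h2, div_one]
    refine lt_of_le_of_lt (Valuation.map_sub _ _ _) (max_lt ?_ ?_)
    · rw [map_mul, map_mul, nf.vαβ, hvs, mul_one, mul_one]
      exact hx1
    · rw [map_mul]
      calc v W.a₁ * v x ≤ 1 * v x := mul_le_mul' nf.va₁ le_rfl
        _ = v x := one_mul _
        _ < 1 := hx1
  refine ⟨y, hns, hvy, ?_⟩
  intro σ hσ hσx hσα hσβ hσa
  have ha₁ : W.a₁ = -(α + β) := by rw [nf.hsum]; ring
  have hσε : σ ε = ε := by
    simp only [hε, map_div₀, map_add, map_mul, map_pow, map_sub, map_ofNat, hσx, hσα, hσβ, hσa]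
  have hσs : σ s = s := by
    refine pt_sqrt_fixed h2 hvs σ hσ ?_
    rw [hs, map_add, map_one, hσε]
  simp only [hy, ha₁, map_div₀, map_sub, map_mul, map_neg, map_add, map_ofNat, hσx, hσα, hσβ, hσs]

/-- **PT, the component of order `p`.** -/
theorem pt_exists_pow [IsAlgClosed K] (nf : NodalNF v W α β) (h2 : v 2 = 1) {p : ℕ} (hp : 3 ≤ p)
    (ha₆ : W.a₆ ≠ 0) {x : K} (hx : v x ^ p = v W.a₆) :
    ∃ (y : K) (hxy : W.Nonsingular x y), IsNodePt v (Point.some x y hxy) ∧
      ∀ σ : K →+* K, (∀ a, v a ≤ 1 → v (σ a - a) < 1) → σ x = x → σ α = α → σ β = β →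
        σ W.a₆ = W.a₆ → σ y = y := by
  have hp0 : p ≠ 0 := by omega
  have hx0 : x ≠ 0 := by
    rintro rfl
    rw [map_zero, zero_pow hp0] at hx
    exact ha₆ ((map_eq_zero v).mp hx.symm)
  have hvx0 : v x ≠ 0 := (Valuation.ne_zero_iff v).mpr hx0
  have hx1 : v x < 1 := by
    by_contra hge
    rw [not_lt] at hge
    have h1 : 1 ≤ v x ^ p := one_le_pow₀ hge
    rw [hx] at h1
    exact absurd nf.va₆ (not_lt.mpr h1)
  have hxa : v W.a₆ < v x ^ 2 := by
    rw [← hx]
    exact pow_lt_pow_right_of_lt_one₀ (zero_lt_iff.mpr hvx0) hx1 (by omega)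
  obtain ⟨y, hxy, hvy, hfix⟩ := pt_exists nf h2 hx0 hx1 hxa
  exact ⟨y, hxy, ⟨hx1, hvy⟩, hfix⟩

end Abstract

section Rho

variable {K : Type*} [Field K] [DecidableEq K] {Γ₀ : Type*} [LinearOrderedCommGroupWithZero Γ₀]
  (v : Valuation K Γ₀) {W : Affine K}

/-- **PT, in terms of the component function**: a point with `v x ^ p = v a₆` has
`p • rhoN X = h + h`, and `rhoN X = w x`. -/
theorem pt_rhoN {b₂ : K} {h : Additive (Γ₀ˣ)ᵒᵈ} (C : CoreN (ofValuation v) b₂ W.a₆ h) {p : ℕ}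
    (hp : 3 ≤ p) {x y : K} (hxy : W.Nonsingular x y) (hx : v x ^ p = v W.a₆) :
    rhoN (ofValuation v) h (Point.some x y hxy) = (ofValuation v).w x ∧
      p • rhoN (ofValuation v) h (Point.some x y hxy) = h + h := by
  have hp0 : p ≠ 0 := by omega
  have ha₆0 : W.a₆ ≠ 0 := C.ha₆.1
  have hx0 : x ≠ 0 := by
    rintro rfl
    rw [map_zero, zero_pow hp0] at hx
    exact ha₆0 ((map_eq_zero v).mp hx.symm)
  have hw : p • (ofValuation v).w x = h + h := by
    rw [← (ofValuation v).w_pow hx0 p, ← C.ha₆.2]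
    exact (w_eq_w_iff v (pow_ne_zero p hx0) ha₆0).mpr (by rw [map_pow, hx])
  have hh := C.hh
  -- `0 < w x < h`
  have hpos : 0 < (ofValuation v).w x := by
    by_contra hle
    rw [not_lt] at hle
    have h1 : p • (ofValuation v).w x ≤ 0 := nsmul_nonpos hle p
    rw [hw] at h1
    exact absurd (add_pos hh hh) (not_lt.mpr h1)
  have hlt : (ofValuation v).w x < h := by
    by_contra hge
    rw [not_lt] at hge
    have h1 : 3 • h ≤ p • (ofValuation v).w x :=
      (nsmul_le_nsmul_left hh.le hp).trans (nsmul_le_nsmul_right hge p)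
    rw [hw, succ_nsmul, two_nsmul] at h1
    have h3 : h + h + h ≤ h + h + 0 := by rwa [add_zero]
    exact absurd hh (not_lt.mpr (le_of_add_le_add_left h3))
  have hne : (Point.some x y hxy : W.Point) ≠ 0 := fun h0 => by cases h0
  have hρ : rhoN (ofValuation v) h (Point.some x y hxy) = (ofValuation v).w x := by
    rw [rhoN_of_ne hne, px_some, AVal.cl_of_ex (AVal.ex_of_ne hx0), max_eq_left hpos.le,
      min_eq_left hlt.le]
  exact ⟨hρ, by rw [hρ, hw]⟩

end Rho

section Map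

variable {K : Type*} [Field K] [DecidableEq K] {Γ₀ : Type*} [LinearOrderedCommGroupWithZero Γ₀]
  {R S : Type*} [CommRing R] [CommRing S] [Algebra R S] [Algebra R K] [Algebra S K]
  [IsScalarTower R S K]

/-- the discriminant of a translate. -/
theorem pt_transl_Δ (W : WeierstrassCurve K) (r t : K) : (transl r t • W).Δ = W.Δ := by
  rw [variableChange_Δ]
  have : (((transl r t).u⁻¹ : Kˣ) : K) = 1 := by
    show (((1 : Kˣ)⁻¹ : Kˣ) : K) = 1
    simp
  rw [this, one_pow, one_mul]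

/-- `σ` fixes the coefficient `a₆` of the translate. -/
theorem pt_map_transl_a₆ (W' : Affine R) {r t : K} (σ : K →ₐ[S] K) (hσr : σ r = r)
    (hσt : σ t = t) : σ (transl r t • (W'⁄K)).a₆ = (transl r t • (W'⁄K)).a₆ := by
  have c₁ : σ (W'⁄K).a₁ = (W'⁄K).a₁ := by
    change σ (W'.map (algebraMap R K)).a₁ = _
    rw [WeierstrassCurve.map_a₁]; exact algHom_coeff σ _
  have c₂ : σ (W'⁄K).a₂ = (W'⁄K).a₂ := by
    change σ (W'.map (algebraMap R K)).a₂ = _
    rw [WeierstrassCurve.map_a₂]; exact algHom_coeff σ _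
  have c₃ : σ (W'⁄K).a₃ = (W'⁄K).a₃ := by
    change σ (W'.map (algebraMap R K)).a₃ = _
    rw [WeierstrassCurve.map_a₃]; exact algHom_coeff σ _
  have c₄ : σ (W'⁄K).a₄ = (W'⁄K).a₄ := by
    change σ (W'.map (algebraMap R K)).a₄ = _
    rw [WeierstrassCurve.map_a₄]; exact algHom_coeff σ _
  have c₆ : σ (W'⁄K).a₆ = (W'⁄K).a₆ := by
    change σ (W'.map (algebraMap R K)).a₆ = _
    rw [WeierstrassCurve.map_a₆]; exact algHom_coeff σ _
  rw [transl_a₆]
  simp only [map_sub, map_add, map_mul, map_pow, c₁, c₂, c₃, c₄, c₆, hσr, hσt]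

/-- **PT, in the setting of `Lib/MultRed/Unipotent.lean`**: a point of `W'⁄K` in the component
of order `p`, fixed by every `σ` which is trivial modulo the maximal ideal and fixes
`r, t, α, β, x`. -/
theorem pt_exists_map [IsAlgClosed K] (v : Valuation K Γ₀) (W' : Affine R) {r t α β : K}
    (nf : NodalNF v ((transl r t) • (W'⁄K)).toAffine α β) (h2 : v 2 = 1) {p : ℕ} (hp : 3 ≤ p)
    (hΔ : (W'⁄K).Δ ≠ 0) {x : K} (hx : v x ^ p = v (W'⁄K).Δ) :
    ∃ (y : K) (h₀ : ((transl r t) • (W'⁄K)).toAffine.Nonsingular x y),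
      IsNodePt v (Point.some x y h₀) ∧
      ∀ σ : K →ₐ[S] K, (∀ a, v a ≤ 1 → v (σ a - a) < 1) → σ r = r → σ t = t → σ α = α →
        σ β = β → σ x = x →
        Point.map σ (vcHom (W₁ := (W'⁄K)) (transl r t) rfl (Point.some x y h₀)) =
          vcHom (W₁ := (W'⁄K)) (transl r t) rfl (Point.some x y h₀) := by
  have hΔ' : ((transl r t) • (W'⁄K)).Δ = (W'⁄K).Δ := pt_transl_Δ _ r t
  have ha₆ : ((transl r t) • (W'⁄K)).toAffine.a₆ ≠ 0 := by
    intro h0
    apply hΔ
    rw [← hΔ', Δ_of_normal _ nf.a₃ nf.a₄]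
    have h0' : ((transl r t) • (W'⁄K)).a₆ = 0 := h0
    rw [h0']
    ring
  have hx' : v x ^ p = v ((transl r t) • (W'⁄K)).toAffine.a₆ := by
    rw [hx, ← hΔ']
    exact nf.v_Δ
  obtain ⟨y, h₀, hnode, hfix⟩ := pt_exists_pow nf h2 hp ha₆ hx'
  refine ⟨y, h₀, hnode, ?_⟩
  intro σ hσ hσr hσt hσα hσβ hσx
  have hσy : σ y = y :=
    hfix (σ : K →+* K) hσ hσx hσα hσβ (pt_map_transl_a₆ W' σ hσr hσt)
  rw [vcHom_apply, vcFun_some, Point.map_some]
  simp only [vcX_transl, vcY_transl, map_add, hσx, hσy, hσr, hσt]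

end Map

end Fermat.Agent.R38T
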