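import Mathlib
import Fermat.Agent.Lib.MultRed.Core
import Fermat.Agent.Lib.MultRed.Comp.Rho
import Fermat.Agent.Lib.MultRed.Comp.Cyc
import Fermat.Agent.Lib.MultRed.Comp.Half
import Fermat.Agent.S05.H27.OfValuation

/-!
# Row 38, block T: the abstract core of MATCH / SPAN (helper77)

* `span_abs`: a function `ρ : G → Γ` satisfying the relation `AVal.Rel` of the component function;
  if `ρ Q₁ = g ≥ 0` and `ρ X = m • g` then `ρ (X - j • Q₁) = 0` for some `j : ℤ`.
* `span_rhoN`: for the component function `rhoN` of a curve in nodal normal form: `P` of odd prime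
  order `p` with `rhoN P ≠ 0`, `X` with `p • rhoN X ∈ ℤ • (h + h)`; then `rhoN (X - j • P) = 0` for
  some `j : ℤ`.
* `match_rhoN`: if moreover `p • rhoN X = h + h` then `j` is prime to `p`.
* `rhoN_pos_of_isNodePt`, `not_isNodePt_of_rhoN_eq_zero`: the link with `MultRed.IsNodePt`.
* `coreN_of_nodalNF`: the parameters `CoreN` of a curve in `NodalNF` over an algebraically closed
  field.
* `span_node`, `match_node`: the same for `IsNodePt`, multiplicative valuation.
-/

set_option autoImplicit false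
set_option linter.unusedSectionVars false

open WeierstrassCurve WeierstrassCurve.Affine

namespace Fermat.Agent.R38T

open Fermat.Agent.MultRed Fermat.Agent.MultRed.Comp S05H65 S05H27

section Abs

variable {G : Type*} [AddCommGroup G] {Γ : Type*} [AddCommGroup Γ] [LinearOrder Γ]
  [IsOrderedAddMonoid Γ]

/-- descending induction along the multiples of a point in the first component -/
theorem span_abs (ρ : G → Γ) (h : Γ)
    (hRel : ∀ P Q, AVal.Rel h (ρ P) (ρ Q) (ρ (P + Q)) (ρ (P - Q)))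
    {g : Γ} (hg : 0 ≤ g) {Q₁ : G} (hQ₁ : ρ Q₁ = g) :
    ∀ (m : ℕ) (X : G), ρ X = m • g → ∃ j : ℤ, ρ (X - j • Q₁) = 0 := by
  intro m
  induction m with
  | zero =>
    intro X hX
    exact ⟨0, by rw [zero_smul, sub_zero, hX, zero_smul]⟩
  | succ m ih =>
    intro X hX
    have hr := hRel X Q₁
    rw [hX, hQ₁] at hr
    have hm0 : 0 ≤ m • g := nsmul_nonneg hg m
    have hmax : max ((m + 1) • g - g) (g - (m + 1) • g) = m • g := by
      rw [succ_nsmul, add_sub_cancel_right]
      apply max_eq_left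
      have : g - (m • g + g) = -(m • g) := by abel
      rw [this]
      exact le_trans (neg_nonpos.mpr hm0) hm0
    rcases hr with ⟨h1, -⟩ | ⟨h1, -⟩
    · obtain ⟨j, hj⟩ := ih (X + Q₁) (by rw [h1, hmax])
      refine ⟨j - 1, ?_⟩
      have : X - (j - 1) • Q₁ = X + Q₁ - j • Q₁ := by
        rw [sub_smul, one_smul]; abel
      rw [this, hj]
    · obtain ⟨j, hj⟩ := ih (X - Q₁) (by rw [h1, hmax])
      refine ⟨j + 1, ?_⟩
      have : X - (j + 1) • Q₁ = X - Q₁ - j • Q₁ := by
        rw [add_smul, one_smul]; abel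
      rw [this, hj]

end Abs

section Rho

variable {K : Type*} [Field K] [DecidableEq K] {G : Type*} [AddCommGroup G] [LinearOrder G]
  [IsOrderedAddMonoid G]
variable {V : AVal K G} {W : WeierstrassCurve.Affine K} {b₂ a₆ : K} {h : G}

/-- **SPAN** for the component function. -/
theorem span_rhoN (N : NodalB W b₂ a₆) (C : CoreN V b₂ a₆ h) {p : ℕ} (hp : p.Prime)
    (hp2 : p ≠ 2) {P : W.Point} (hP : p • P = 0) (hP0 : rhoN V h P ≠ 0) (X : W.Point)
    {m : ℤ} (hX : p • rhoN V h X = m • (h + h)) :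
    ∃ j : ℤ, rhoN V h (X - j • P) = 0 := by
  have hh := C.hh
  obtain ⟨g, i₀, hg0, hpg, hi₀, -⟩ := cyc_structure (rhoN (W := W) V h) h rhoN_zero
    (fun Q => ⟨rhoN_nonneg hh Q, rhoN_le hh Q⟩) (rhoN_pairRel N C) hp hp2 P hP hP0
  -- `rhoN X = m • g`
  have hXg : rhoN V h X = m • g := by
    have h1 : p • (rhoN V h X - m • g) = 0 := by
      rw [smul_sub, hX, ← hpg, ← natCast_zsmul (m • g) p, smul_comm (p : ℤ) m g,
        natCast_zsmul, sub_self]
    exact sub_eq_zero.mp (nsmul_eq_zero_imp hp.pos h1)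
  have hm0 : 0 ≤ m := by
    apply nonneg_of_zsmul_nonneg hg0
    rw [← hXg]
    exact rhoN_nonneg hh X
  obtain ⟨n, rfl⟩ := Int.eq_ofNat_of_zero_le hm0
  rw [natCast_zsmul] at hXg
  obtain ⟨j, hj⟩ := span_abs (rhoN (W := W) V h) h (fun P Q => rhoN_rel N C P Q) hg0.le hi₀ n X hXg
  refine ⟨j * i₀, ?_⟩
  rw [mul_smul, natCast_zsmul]
  exact hj

/-- **MATCH** for the component function: the multiplier is prime to `p`. -/
theorem match_rhoN (N : NodalB W b₂ a₆) (C : CoreN V b₂ a₆ h) {p : ℕ} (hp : p.Prime)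
    (hp2 : p ≠ 2) {P : W.Point} (hP : p • P = 0) (hP0 : rhoN V h P ≠ 0) (X : W.Point)
    (hX : p • rhoN V h X = h + h) :
    ∃ j : ℤ, ¬ (p : ℤ) ∣ j ∧ rhoN V h (X - j • P) = 0 := by
  have hh := C.hh
  obtain ⟨j, hj⟩ := span_rhoN N C hp hp2 hP hP0 X (m := 1) (by rw [one_smul]; exact hX)
  refine ⟨j, ?_, hj⟩
  rintro ⟨c, rfl⟩
  have h0 : ((p : ℤ) * c) • P = 0 := by
    rw [mul_comm, mul_smul, natCast_zsmul, hP, smul_zero]
  rw [h0, sub_zero] at hj
  rw [hj, smul_zero] at hX
  exact absurd (add_pos hh hh) (by rw [← hX]; exact lt_irrefl _)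

end Rho

section Node

variable {K : Type*} [Field K] [DecidableEq K] {Γ₀ : Type*} [LinearOrderedCommGroupWithZero Γ₀]
  {v : Valuation K Γ₀} {W : Affine K} {α β : K}

/-- a point reducing to the node lies in a nontrivial component -/
theorem rhoN_pos_of_isNodePt {h : Additive (Γ₀ˣ)ᵒᵈ} (hh : 0 < h) {P : W.Point}
    (hP : IsNodePt v P) : 0 < rhoN (ofValuation v) h P := by
  rcases P with _ | ⟨x, y, hxy⟩
  · exact absurd hP (fun h => h)
  · have hne : (Point.some x y hxy : W.Point) ≠ 0 := fun h0 => by cases h0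
    rw [rhoN_of_ne hne, px_some]
    have hgt : (ofValuation v).Gt x 0 := (lt_one_iff_gt v x).mp hP.1
    rcases AVal.regime (ofValuation v) h x with ⟨γ, h1, hγ⟩ | ⟨γ, h1, hγ, hγ'⟩ | h1
    · exact absurd (h1.not_gt hgt) (not_lt.mpr hγ)
    · rw [AVal.cl_of_ex h1, max_eq_left hγ.le, min_eq_left hγ'.le]
      exact hγ
    · rw [AVal.cl_of_ge hh h1]
      exact hh

theorem not_isNodePt_of_rhoN_eq_zero {h : Additive (Γ₀ˣ)ᵒᵈ} (hh : 0 < h) {P : W.Point}
    (hP : rhoN (ofValuation v) h P = 0) : ¬ IsNodePt v P := fun hn =>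
  (rhoN_pos_of_isNodePt hh hn).ne' hP

/-- the parameters of the component function of a curve in nodal normal form -/
theorem coreN_of_nodalNF [IsAlgClosed K] (nf : NodalNF v W α β) (ha₆ : W.a₆ ≠ 0) :
    ∃ h : Additive (Γ₀ˣ)ᵒᵈ, CoreN (ofValuation v) W.b₂ W.a₆ h := by
  obtain ⟨δ, hδ⟩ := IsAlgClosed.exists_pow_nat_eq W.a₆ (n := 2) (by norm_num)
  have hδ0 : δ ≠ 0 := by
    rintro rfl
    apply ha₆
    rw [← hδ]
    ring
  refine ⟨(ofValuation v).w δ, ?_⟩
  have ha : (ofValuation v).Ex W.a₆ ((ofValuation v).w δ + (ofValuation v).w δ) := by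
    rw [← hδ]
    exact (AVal.ex_of_ne hδ0).sq
  have hh : 0 < (ofValuation v).w δ := by
    have h1 : (ofValuation v).Gt W.a₆ 0 := (lt_one_iff_gt v _).mp nf.va₆
    have h2 := ha.not_gt h1
    by_contra hc
    rw [not_lt] at hc
    have : (ofValuation v).w δ + (ofValuation v).w δ ≤ 0 := add_nonpos hc hc
    exact absurd h2 (not_lt.mpr this)
  have hb₂ : (ofValuation v).Ex W.b₂ 0 := by
    rw [← eq_one_iff_ex]
    have hb : W.b₂ = (α - β) ^ 2 := by
      have h1 := nf.hsum
      have h2 := nf.hprod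
      simp only [WeierstrassCurve.b₂]
      have ha₁ : W.a₁ = -(α + β) := by rw [h1]; ring
      have ha₂ : W.a₂ = -(α * β) := by rw [h2]; ring
      rw [ha₁, ha₂]
      ring
    rw [hb, map_pow, nf.vαβ, one_pow]
  exact { h2 := ge_ofNat (ofValuation v) 2, hb₂ := hb₂, ha₆ := ha, hh := hh }

/-- **SPAN**: two points of order `p`, one of them reducing to the node: some combination
`X - j • P` does not reduce to the node. -/
theorem span_node [IsAlgClosed K] (nf : NodalNF v W α β) (ha₆ : W.a₆ ≠ 0) {p : ℕ} (hp : p.Prime)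
    (hp2 : p ≠ 2) {P : W.Point} (hP : p • P = 0) (hPn : IsNodePt v P) {X : W.Point}
    (hX : p • X = 0) : ∃ j : ℤ, ¬ IsNodePt v (X - j • P) := by
  obtain ⟨h, C⟩ := coreN_of_nodalNF nf ha₆
  have N := nodalB_of_a₃_a₄ W nf.a₃ nf.a₄
  obtain ⟨m, hm⟩ := rhoN_torsion N C X p hX
  obtain ⟨j, hj⟩ := span_rhoN N C hp hp2 hP (rhoN_pos_of_isNodePt C.hh hPn).ne' X hm
  exact ⟨j, not_isNodePt_of_rhoN_eq_zero C.hh hj⟩

/-- **MATCH**: `X = (x, y)` with `v x ^ p = v a₆` (the point of leaf PT) and `P` of order `p`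
reducing to the node: `X - j • P` does not reduce to the node for some `j` prime to `p`. -/
theorem match_node [IsAlgClosed K] (nf : NodalNF v W α β) (ha₆ : W.a₆ ≠ 0) {p : ℕ} (hp : p.Prime)
    (hp2 : p ≠ 2) {P : W.Point} (hP : p • P = 0) (hPn : IsNodePt v P) {x y : K}
    (hxy : W.Nonsingular x y) (hx : v x ^ p = v W.a₆) :
    ∃ j : ℤ, ¬ (p : ℤ) ∣ j ∧ ¬ IsNodePt v (Point.some x y hxy - j • P) := by
  obtain ⟨h, C⟩ := coreN_of_nodalNF nf ha₆
  have N := nodalB_of_a₃_a₄ W nf.a₃ nf.a₄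
  have hp3 : 3 ≤ p := by
    have := hp.two_le
    omega
  -- `p • rhoN X = h + h`
  have hx0 : x ≠ 0 := by
    rintro rfl
    rw [map_zero, zero_pow hp.ne_zero] at hx
    exact ha₆ ((map_eq_zero v).mp hx.symm)
  have hw : p • (ofValuation v).w x = h + h := by
    rw [← (ofValuation v).w_pow hx0 p, ← C.ha₆.2]
    exact (w_eq_w_iff v (pow_ne_zero p hx0) ha₆).mpr (by rw [map_pow, hx])
  have hh := C.hh
  have hpos : 0 < (ofValuation v).w x := by
    by_contra hle
    rw [not_lt] at hle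
    have h1 : p • (ofValuation v).w x ≤ 0 := nsmul_nonpos hle p
    rw [hw] at h1
    exact absurd (add_pos hh hh) (not_lt.mpr h1)
  have hlt : (ofValuation v).w x < h := by
    by_contra hge
    rw [not_lt] at hge
    have h1 : 3 • h ≤ p • (ofValuation v).w x :=
      (nsmul_le_nsmul_left hh.le hp3).trans (nsmul_le_nsmul_right hge p)
    rw [hw, succ_nsmul, two_nsmul] at h1
    have h3 : h + h + h ≤ h + h + 0 := by rwa [add_zero]
    exact absurd hh (not_lt.mpr (le_of_add_le_add_left h3))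
  have hne : (Point.some x y hxy : W.Point) ≠ 0 := fun h0 => by cases h0
  have hρ : rhoN (ofValuation v) h (Point.some x y hxy) = (ofValuation v).w x := by
    rw [rhoN_of_ne hne, px_some, AVal.cl_of_ex (AVal.ex_of_ne hx0), max_eq_left hpos.le,
      min_eq_left hlt.le]
  obtain ⟨j, hj, hj0⟩ := match_rhoN N C hp hp2 hP (rhoN_pos_of_isNodePt C.hh hPn).ne'
    (Point.some x y hxy) (by rw [hρ, hw])
  exact ⟨j, hj, not_isNodePt_of_rhoN_eq_zero C.hh hj0⟩

end Node

end Fermat.Agent.R38T
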