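/-
Row 38 (target S44), block T (Frey curve at `p`, sub-architect helper77), complement to the leaf
MATCH (helper91): the point `X` of leaf PT has `p • X` in the identity component.

* `match_rhoN_smul` : `p • rhoN X = h + h ⟹ rhoN (p • X) = 0` (abstract, any `AVal`);
* `match_node_smul` : for a `NodalNF` over an algebraically closed field and `X = (x, y)` with
  `v x ^ p = v a₆`, `3 ≤ p`: `¬ IsNodePt v (p • X)`.
-/
import Mathlib
import Fermat.Agent.R38.T.Span
import Fermat.Agent.R38.T.Pt

set_option autoImplicit false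
set_option linter.unusedSectionVars false

open WeierstrassCurve WeierstrassCurve.Affine

namespace Fermat.Agent.R38T

open Fermat.Agent.MultRed Fermat.Agent.MultRed.Comp S05H65 S05H27

section Abstract

variable {K : Type*} [Field K] [DecidableEq K]
  {G : Type*} [AddCommGroup G] [LinearOrder G] [IsOrderedAddMonoid G]
  {W : WeierstrassCurve.Affine K} {V : AVal K G} {b₂ a₆ : K} {h : G}

/-- an integer multiple of `h + h` in `[0, h]` is zero -/
theorem match_zsmul_eq_zero {h : G} (hh : 0 < h) {z : ℤ} (h0 : 0 ≤ z • (h + h))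
    (h1 : z • (h + h) ≤ h) : z • (h + h) = 0 := by
  have hn : 0 < h + h := add_pos hh hh
  have hz0 : 0 ≤ z := nonneg_of_zsmul_nonneg hn h0
  have hz1 : z < 1 := by
    by_contra hc
    rw [not_lt] at hc
    have h2 : (1 : ℤ) • (h + h) ≤ z • (h + h) := zsmul_le_zsmul_left hn.le hc
    rw [one_smul] at h2
    have h3 : h + h ≤ h + 0 := by rw [add_zero]; exact h2.trans h1
    exact absurd hh (not_lt.mpr (le_of_add_le_add_left h3))
  have : z = 0 := by omega
  rw [this, zero_smul]

/-- `p • X` lies in the identity component when `p • rhoN X = h + h`. -/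
theorem match_rhoN_smul (N : NodalB W b₂ a₆) (C : CoreN V b₂ a₆ h) {p : ℕ}
    {X : W.Point} (hX : p • rhoN V h X = h + h) : rhoN V h (p • X) = 0 := by
  have hh := C.hh
  have hsim := (rho_nsmul_simN (rhoN (W := W) V h) (h + h) rhoN_zero (rhoN_pairRel N C) X p).1
  have h0 := rhoN_nonneg (V := V) hh (p • X)
  have h1 := rhoN_le (V := V) hh (p • X)
  obtain ⟨k, hk | hk⟩ := hsim
  · rw [hX] at hk
    have e : rhoN V h (p • X) = (1 + k) • (h + h) := by rw [hk, add_smul, one_smul]
    rw [e] at h0 h1 ⊢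
    exact match_zsmul_eq_zero hh h0 h1
  · rw [hX] at hk
    have e : rhoN V h (p • X) = (-1 + k) • (h + h) := by
      rw [hk, add_smul, neg_smul, one_smul]
    rw [e] at h0 h1 ⊢
    exact match_zsmul_eq_zero hh h0 h1

end Abstract

section Node

variable {K : Type*} [Field K] [DecidableEq K] {Γ₀ : Type*} [LinearOrderedCommGroupWithZero Γ₀]
  {v : Valuation K Γ₀} {W : Affine K} {α β : K}

/-- **the point of leaf PT**: `X = (x, y)` with `v x ^ p = v a₆` has `p • X` off the node. -/
theorem match_node_smul [IsAlgClosed K] (nf : NodalNF v W α β) (ha₆ : W.a₆ ≠ 0) {p : ℕ}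
    (hp : 3 ≤ p) {x y : K} (hxy : W.Nonsingular x y) (hx : v x ^ p = v W.a₆) :
    ¬ IsNodePt v (p • Point.some x y hxy) := by
  obtain ⟨h, C⟩ := coreN_of_nodalNF nf ha₆
  have N := nodalB_of_a₃_a₄ W nf.a₃ nf.a₄
  exact not_isNodePt_of_rhoN_eq_zero C.hh
    (match_rhoN_smul N C (pt_rhoN v C hp hxy hx).2)

end Node

end Fermat.Agent.R38T
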