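/-
Row 38 (target S44), block T (Frey curve at `p`, sub-architect helper77), leaf PT (helper4),
concrete form over `ℚ̄`.

`W / ℤ` with `v_p(Δ) = p m` (`Δ = p ^ (p m) u`, `p ∤ u`), `p` odd, `A ∣ p` a place of `ℚ̄`, the
translate `transl r t • E` of `E = W⁄ℚ̄` in nodal normal form at `A` with `r, t, α, β` fixed by
inertia (`Lib/MultRed/NormalQbar.exists_nodalNF`).  Then there is a point of `E(ℚ̄)` with
`x`-coordinate `p ^ m + r`, reducing to the node, fixed by the inertia group of `A`.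
-/
import Mathlib
import Fermat.Agent.R38.T.Pt
import Fermat.Agent.Lib.MultRed.Main

set_option autoImplicit false
set_option linter.unusedSectionVars false

open WeierstrassCurve WeierstrassCurve.Affine

namespace Fermat.Agent.R38T

open Fermat.Agent.MultRed Fermat.Agent.MultRed.Comp S05H65 S05H27 Fermat.Agent.VarChange S05H5

local notation "Qb" => AlgebraicClosure ℚ

/-- the valuation of an integer prime to `p` at a place over `p`. -/
theorem pt_val_intCast_eq_one {p : ℕ} (hp : p.Prime) (A : ValuationSubring Qb)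
    (hA : A.LiesOverPrime p) {u : ℤ} (hu : ¬ (p : ℤ) ∣ u) : A.valuation ((u : ℤ) : Qb) = 1 := by
  have h1 : ¬ p ∣ u.natAbs := fun h => hu (Int.natCast_dvd.mpr h)
  have h2 := Fermat.Agent.EllRed.valuation_natCast_eq_one (K := Qb) hp hA h1
  have h3 : A.valuation (((u.natAbs : ℕ) : ℤ) : Qb) = 1 := by
    rw [Int.cast_natCast]
    exact h2
  rcases Int.natAbs_eq u with h | h
  · rw [h]
    exact h3
  · rw [h, Int.cast_neg, Valuation.map_neg]
    exact h3

/-- the discriminant of `W⁄ℚ̄`. -/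
theorem pt_Δ_map_int (W : WeierstrassCurve ℤ) :
    ((W.map (Int.castRingHom ℚ))⁄Qb).Δ = ((W.Δ : ℤ) : Qb) := by
  show ((W.map (Int.castRingHom ℚ)).map (algebraMap ℚ Qb)).Δ = _
  rw [WeierstrassCurve.map_Δ, WeierstrassCurve.map_Δ]
  simp

/-- **PT over `ℚ̄`**: an inertia-fixed point in the component of order `p`. -/
theorem pt_exists_Qbar (W : WeierstrassCurve ℤ) {p : ℕ} (hp : p.Prime) (hp2 : p ≠ 2)
    [DecidableEq Qb] (A : ValuationSubring Qb) (hA : A.LiesOverPrime p)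
    {m : ℕ} {u : ℤ} (hu : ¬ (p : ℤ) ∣ u) (hΔm : W.Δ = (p : ℤ) ^ (p * m) * u)
    {r t α β : Qb}
    (nf : NodalNF A.valuation ((transl r t) • ((W.map (Int.castRingHom ℚ))⁄Qb)).toAffine α β)
    (hfix : ∀ σ : Qb ≃ₐ[ℚ] Qb, σ ∈ A.inertiaSubgroupIn ℚ →
      σ r = r ∧ σ t = t ∧ σ α = α ∧ σ β = β) :
    ∃ (y : Qb)
      (h₀ : ((transl r t) • ((W.map (Int.castRingHom ℚ))⁄Qb)).toAffine.Nonsingular
        ((p : Qb) ^ m) y),
      IsNodePt A.valuation (Point.some ((p : Qb) ^ m) y h₀) ∧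
      ∀ σ : Qb ≃ₐ[ℚ] Qb, σ ∈ A.inertiaSubgroupIn ℚ →
        σ • (vcHom (W₁ := ((W.map (Int.castRingHom ℚ))⁄Qb)) (transl r t) rfl
            (Point.some ((p : Qb) ^ m) y h₀)) =
          vcHom (W₁ := ((W.map (Int.castRingHom ℚ))⁄Qb)) (transl r t) rfl
            (Point.some ((p : Qb) ^ m) y h₀) := by
  have hp3 : 3 ≤ p := by
    have := hp.two_le
    omega
  have h2 : A.valuation (2 : Qb) = 1 := by
    have h := Fermat.Agent.EllRed.valuation_natCast_eq_one (K := Qb) hp hA (n := 2)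
      (fun hd => hp2 ((Nat.prime_dvd_prime_iff_eq hp Nat.prime_two).mp hd))
    exact_mod_cast h
  have hp0 : (p : Qb) ≠ 0 := Nat.cast_ne_zero.mpr hp.ne_zero
  have hu0 : u ≠ 0 := by
    rintro rfl
    exact hu (dvd_zero _)
  have hΔE : ((W.map (Int.castRingHom ℚ))⁄Qb).Δ = (p : Qb) ^ (p * m) * ((u : ℤ) : Qb) := by
    rw [pt_Δ_map_int, hΔm]
    push_cast
    ring
  have hΔ0 : ((W.map (Int.castRingHom ℚ))⁄Qb).Δ ≠ 0 := by
    rw [hΔE]
    exact mul_ne_zero (pow_ne_zero _ hp0) (Int.cast_ne_zero.mpr hu0)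
  have hx : A.valuation ((p : Qb) ^ m) ^ p = A.valuation ((W.map (Int.castRingHom ℚ))⁄Qb).Δ := by
    rw [hΔE, map_mul, pt_val_intCast_eq_one hp A hA hu, mul_one, map_pow, map_pow, ← pow_mul,
      mul_comm m p]
  obtain ⟨y, h₀, hnode, hmap⟩ := pt_exists_map (S := ℚ) A.valuation
    (W.map (Int.castRingHom ℚ)).toAffine nf h2 hp3 hΔ0 hx
  refine ⟨y, h₀, hnode, ?_⟩
  intro σ hσ
  obtain ⟨hσr, hσt, hσα, hσβ⟩ := hfix σ hσ
  have hσ1 : ∀ a : Qb, A.valuation a ≤ 1 → A.valuation (σ.toAlgHom a - a) < 1 := by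
    intro a ha
    rw [A.valuation_le_one_iff] at ha
    exact A.mem_nonunits_iff.mp (inertiaIn_sub_mem_nonunits A σ hσ ha)
  have hσx : σ.toAlgHom ((p : Qb) ^ m) = (p : Qb) ^ m := by
    rw [map_pow, map_natCast]
  exact hmap σ.toAlgHom hσ1 hσr hσt hσα hσβ hσx

end Fermat.Agent.R38T
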