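import Mathlib
import Fermat.Agent.R38.Spine
import Fermat.Agent.R38.T.Final

/-!
# Row 38: the junction `SpJT` of the spine (block T; helper77, helper39, helper13, helper4,
helper26, helper6, helper91)

`spJT : SpJT`: the Kummer form of "peu ramifie" for the integral Frey model `P.freyCurveInt`
at `p ∣ a b c`.
-/

set_option autoImplicit false

namespace Fermat.Agent.R38T

/-- **junction J-T** of the spine of row 38. -/
theorem spJT : Fermat.Agent.R38.SpJT := fun P hp A hA => peuFreyInt P hp A hA

end Fermat.Agent.R38T
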