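import Mathlib
import Fermat.Prelude.Def_FLTPrelim_Modularity
import Fermat.Agent.R38.T.Defs
import Fermat.Agent.Lib.VarChange.BaseChange

/-!
# Row 38, junction J-TW: transport of the Kummer form of "peu ramifie" along a change of variables
(owner: helper13)

`PeuKummer E p A` only depends on the `ℚ`-isomorphism class of the Weierstrass curve `E`: a change
of variables `C • E' = E` over `ℚ` induces an injective group homomorphism on `Q̄`-points
(`Lib/VarChange/BaseChange.lean`: `vcHomBC`) commuting with the action of the Galois group.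

* `peuKummer_of_variableChange`: `C • E' = E`, `PeuKummer E p A` ⟹ `PeuKummer E' p A`.
* `peuKummer_variableChange_iff`: `PeuKummer (C • E) p A ↔ PeuKummer E p A`.
* `peuKummer_of_isIntegralModelOf`: `W.IsIntegralModelOf E`, `PeuKummer E p A` ⟹
  `PeuKummer (W.map (Int.castRingHom ℚ)) p A`; `peuKummer_isIntegralModelOf_iff` is the `↔`.
* `peuKummer_transport`: the form of the junction, for the Frey curve of a Frey package.
-/

set_option autoImplicit false
set_option linter.unusedSectionVars false

open WeierstrassCurve WeierstrassCurve.Affine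

namespace Fermat.Agent.R38T

open Fermat.Agent.VarChange

/-- a point of `E'` fixed after the change of variables is fixed -/
theorem tw_smul_eq_of_vcHomBC {E E' : WeierstrassCurve ℚ} (C : VariableChange ℚ)
    (hC : C • E' = E) (σ : AlgebraicClosure ℚ ≃ₐ[ℚ] AlgebraicClosure ℚ)
    (x : (E'⁄(AlgebraicClosure ℚ)).Point)
    (h : σ • vcHomBC (K := AlgebraicClosure ℚ) C hC x = vcHomBC (K := AlgebraicClosure ℚ) C hC x) :
    σ • x = x := by
  apply vcHomBC_injective (K := AlgebraicClosure ℚ) C hC
  rw [Point.algEquiv_smul_def, vcHomBC_map, ← Point.algEquiv_smul_def]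
  exact h

theorem peuKummer_of_variableChange {E E' : WeierstrassCurve ℚ} (C : VariableChange ℚ)
    (hC : C • E' = E) {p : ℕ} {A : ValuationSubring (AlgebraicClosure ℚ)}
    (h : PeuKummer E p A) : PeuKummer E' p A := by
  obtain ⟨a, ha1, ha2, ha3, ha4⟩ := h
  refine ⟨a, ha1, ha2, ha3, fun α ζ hα hζ σ hσ hσζ hσα x hx => ?_⟩
  apply tw_smul_eq_of_vcHomBC C hC σ x
  apply ha4 α ζ hα hζ σ hσ hσζ hσα
  rw [← map_nsmul, hx, map_zero]

theorem peuKummer_variableChange_iff (E : WeierstrassCurve ℚ) (C : VariableChange ℚ) (p : ℕ)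
    (A : ValuationSubring (AlgebraicClosure ℚ)) :
    PeuKummer (C • E) p A ↔ PeuKummer E p A :=
  ⟨peuKummer_of_variableChange C rfl,
    peuKummer_of_variableChange C⁻¹ (inv_smul_smul C E)⟩

theorem peuKummer_of_isIntegralModelOf {W : WeierstrassCurve ℤ} {E : WeierstrassCurve ℚ}
    (hW : W.IsIntegralModelOf E) {p : ℕ} {A : ValuationSubring (AlgebraicClosure ℚ)}
    (h : PeuKummer E p A) : PeuKummer (W.map (Int.castRingHom ℚ)) p A := by
  obtain ⟨C, hC⟩ := hW
  rw [← hC]
  exact (peuKummer_variableChange_iff E C p A).mpr h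

theorem peuKummer_isIntegralModelOf_iff {W : WeierstrassCurve ℤ} {E : WeierstrassCurve ℚ}
    (hW : W.IsIntegralModelOf E) (p : ℕ) (A : ValuationSubring (AlgebraicClosure ℚ)) :
    PeuKummer (W.map (Int.castRingHom ℚ)) p A ↔ PeuKummer E p A := by
  obtain ⟨C, hC⟩ := hW
  rw [← hC]
  exact peuKummer_variableChange_iff E C p A

/-- junction J-TW of the spine of row 38 -/
theorem peuKummer_transport (P : FreyPackage) (W : WeierstrassCurve ℤ)
    (hW : W.IsIntegralModelOf P.freyCurve) (p : ℕ) (A : ValuationSubring (AlgebraicClosure ℚ))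
    (h : PeuKummer P.freyCurve p A) : PeuKummer (W.map (Int.castRingHom ℚ)) p A :=
  peuKummer_of_isIntegralModelOf hW h

/-- two integral models of the same curve: the Kummer form passes from one to the other -/
theorem peuKummer_of_two_models {W W' : WeierstrassCurve ℤ} {E : WeierstrassCurve ℚ}
    (hW : W.IsIntegralModelOf E) (hW' : W'.IsIntegralModelOf E) {p : ℕ}
    {A : ValuationSubring (AlgebraicClosure ℚ)}
    (h : PeuKummer (W.map (Int.castRingHom ℚ)) p A) :
    PeuKummer (W'.map (Int.castRingHom ℚ)) p A :=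
  peuKummer_of_isIntegralModelOf hW' ((peuKummer_isIntegralModelOf_iff hW p A).mp h)

end Fermat.Agent.R38T
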